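import Mathlib
import Fermat.Agent.LT.General.Field
import Fermat.Agent.LT.General.Level
import Fermat.Agent.LT.Descent.Galois

set_option autoImplicit false

/-!
# The trace from the sextic field to the quadratic one
-/

noncomputable section

open NumberField IsDedekindDomain
open FermatAgent.LT (galInt)

namespace FermatAgent.LTG

local notation "Qb" => AlgebraicClosure ℚ

attribute [local instance] FermatAgent.RT.isGalois_algClosureRat

namespace Setup

variable {S : Setup} {σ : S.F ≃+* S.F}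

theorem IsGalGen.sq_ne_refl (hσ : S.IsGalGen σ) : σ.trans σ ≠ RingEquiv.refl S.F := fun h =>
  hσ.1 (RingEquiv.ext fun x =>
    (congrArg σ (RingEquiv.congr_fun h x)).symm.trans (IsGalGen.apply_cube S hσ x))

theorem IsGalGen.trans_ne (hσ : S.IsGalGen σ) : σ.trans σ ≠ σ := fun h =>
  hσ.1 (RingEquiv.ext fun x => σ.injective (RingEquiv.congr_fun h x))

/-- The relative trace: its image in `F` and its compatibility with the absolute traces. -/
theorem IsGalGen.trace_F (hσ : S.IsGalGen σ) (x : S.F) :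
    ∃ r : S.K, S.inclKF r = x + σ x + σ (σ x) ∧
      Algebra.trace ℚ S.F x = Algebra.trace ℚ S.K r := by
  classical
  let _ : Algebra S.K S.F := S.inclKF.toRingHom.toAlgebra
  have : IsScalarTower ℚ S.K S.F := IsScalarTower.of_algebraMap_eq' (Subsingleton.elim _ _)
  have := S.isGalois_F
  have : IsGalois S.K S.F := IsGalois.tower_top_of_isGalois ℚ S.K S.F
  have : FiniteDimensional S.K S.F := FiniteDimensional.right ℚ S.K S.F
  refine ⟨Algebra.trace S.K S.F x, ?_, (Algebra.trace_trace x).symm⟩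
  let s : S.F ≃ₐ[S.K] S.F := AlgEquiv.ofRingEquiv (f := σ) hσ.2
  have huniv : (Finset.univ : Finset (S.F ≃ₐ[S.K] S.F)) = {1, s, s * s} := by
    refine (Finset.eq_univ_of_forall fun τ => ?_).symm
    simp only [Finset.mem_insert, Finset.mem_singleton]
    rcases IsGalGen.cases S hσ (τ := (τ : S.F ≃+* S.F)) (fun y => τ.commutes y) with h | h | h
    · exact Or.inl (AlgEquiv.ext fun y => RingEquiv.congr_fun h y)
    · exact Or.inr (Or.inl (AlgEquiv.ext fun y => RingEquiv.congr_fun h y))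
    · exact Or.inr (Or.inr (AlgEquiv.ext fun y => RingEquiv.congr_fun h y))
  have h1 : (1 : S.F ≃ₐ[S.K] S.F) ≠ s := fun h =>
    hσ.1 (RingEquiv.ext fun y => (AlgEquiv.congr_fun h y).symm)
  have h2 : (1 : S.F ≃ₐ[S.K] S.F) ≠ s * s := fun h =>
    IsGalGen.sq_ne_refl hσ (RingEquiv.ext fun y => (AlgEquiv.congr_fun h y).symm)
  have h3 : s ≠ s * s := fun h =>
    IsGalGen.trans_ne hσ (RingEquiv.ext fun y => (AlgEquiv.congr_fun h y).symm)
  show algebraMap S.K S.F _ = _
  rw [trace_eq_sum_automorphisms, huniv, Finset.sum_insert (by simp [h1, h2]),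
    Finset.sum_insert (by simp [h3]), Finset.sum_singleton, ← add_assoc]
  rfl

theorem IsGalGen.trace_inclKF (hσ : S.IsGalGen σ) (r : S.K) :
    Algebra.trace ℚ S.F (S.inclKF r) = 3 * Algebra.trace ℚ S.K r := by
  obtain ⟨t, ht, htr⟩ := IsGalGen.trace_F hσ (S.inclKF r)
  rw [hσ.2, hσ.2] at ht
  rw [htr, show t = (3 : ℕ) • r from S.inclKF.injective (ht.trans (by rw [map_nsmul]; abel)),
    map_nsmul, nsmul_eq_mul]
  norm_num

theorem coe_inclInt (r : 𝓞 S.K) : ((S.inclInt r : 𝓞 S.F) : S.F) = S.inclKF (r : S.K) := rfl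

theorem coe_trace_int {L : Type*} [Field L] [NumberField L] (x : 𝓞 L) :
    ((Algebra.trace ℤ (𝓞 L) x : ℤ) : ℚ) = Algebra.trace ℚ L (x : L) :=
  (Algebra.trace_localization ℤ (nonZeroDivisors ℤ) x).symm

/-- The relative trace of an integer. -/
theorem IsGalGen.trace_int (hσ : S.IsGalGen σ) (x : 𝓞 S.F) :
    ∃ r : 𝓞 S.K, S.inclInt r = x + galInt σ x + galInt σ (galInt σ x) ∧
      Algebra.trace ℤ (𝓞 S.F) x = Algebra.trace ℤ (𝓞 S.K) r := by
  obtain ⟨r, hr, htr⟩ := IsGalGen.trace_F hσ (x : S.F)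
  have hint : IsIntegral ℤ r := by
    refine (isIntegral_algHom_iff (S.inclKF.restrictScalars ℤ) S.inclKF.injective).mp ?_
    show IsIntegral ℤ (S.inclKF r)
    rw [hr]
    exact RingOfIntegers.isIntegral_coe (x + galInt σ x + galInt σ (galInt σ x))
  refine ⟨⟨r, hint⟩, RingOfIntegers.ext hr, Int.cast_injective (α := ℚ) ?_⟩
  rw [coe_trace_int, coe_trace_int, htr]
  rfl

theorem IsGalGen.trace_inclInt (hσ : S.IsGalGen σ) (r : 𝓞 S.K) :
    Algebra.trace ℤ (𝓞 S.F) (S.inclInt r) = 3 * Algebra.trace ℤ (𝓞 S.K) r := by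
  refine Int.cast_injective (α := ℚ) ?_
  push_cast
  rw [coe_trace_int, coe_trace_int, coe_inclInt, IsGalGen.trace_inclKF hσ]

theorem trace_galInt (τ : S.F ≃+* S.F) (x : 𝓞 S.F) :
    Algebra.trace ℤ (𝓞 S.F) (galInt τ x) = Algebra.trace ℤ (𝓞 S.F) x :=
  Algebra.trace_eq_of_algEquiv (galInt τ).toIntAlgEquiv x

theorem IsGalGen.galInt_cube (hσ : S.IsGalGen σ) (x : 𝓞 S.F) :
    galInt σ (galInt σ (galInt σ x)) = x :=
  RingOfIntegers.ext (IsGalGen.apply_cube S hσ x)

theorem IsGalGen.galInt_inclInt (hσ : S.IsGalGen σ) (r : 𝓞 S.K) :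
    galInt σ (S.inclInt r) = S.inclInt r := RingOfIntegers.ext (hσ.2 _)

end Setup

end FermatAgent.LTG

end
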