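import Mathlib
import Fermat.Agent.LT.General.Level.Trace
import Fermat.Agent.ExtVanish.InertiaLift

set_option autoImplicit false

/-!
# Levels exist

The different of `F` is supported on the bad primes, so a power of `m` kills the inverse different.
-/

noncomputable section

open NumberField IsDedekindDomain
open FermatAgent.LT (mem_quaternionSubgroup)
open scoped nonZeroDivisors Pointwise

namespace FermatAgent.LTG

local notation "Qb" => AlgebraicClosure ℚ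

attribute [local instance] FermatAgent.RT.isGalois_algClosureRat

namespace Setup

variable (S : Setup)

theorem inertia_eq_bot (Q : Ideal (𝓞 S.F)) [Q.IsPrime] (hQ : Q ≠ ⊥) {q : ℕ} (hq : q.Prime)
    (hqQ : (q : 𝓞 S.F) ∈ Q) (hqm : ¬ q ∣ S.m) : Q.inertia (S.F ≃ₐ[ℚ] S.F) = ⊥ := by
  refine (Subgroup.eq_bot_iff_forall _).mpr fun σ hσ => ?_
  obtain ⟨A, hA, τ, hτ, hτx⟩ := ExtVanish.exists_inertia_lift S.F.val Q hQ hq hqQ σ hσ
  refine AlgEquiv.ext fun x => Subtype.ext ?_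
  have h1 : S.ρ τ ∈ LT.quaternionSubgroup := by
    rw [S.unramified q hq hqm A hA τ hτ]
    exact one_mem _
  exact (hτx x).symm.trans (S.apply_eq_self_of_q8 h1 x.2)

theorem m_mem_of_different_le (Q : Ideal (𝓞 S.F)) [Q.IsMaximal] (hQ : Q ≠ ⊥)
    (hd : differentIdeal ℤ (𝓞 S.F) ≤ Q) : (S.m : 𝓞 S.F) ∈ Q := by
  obtain ⟨z, hz⟩ : ∃ z : ℕ, z.Prime ∧ (z : 𝓞 S.F) ∈ Q := by
    refine ⟨(Ideal.absNorm (Q.under ℤ)), ?_, ?_⟩
    · exact Nat.absNorm_under_prime Q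
    · have := Ideal.absNorm_mem (Q.under ℤ)
      rw [Ideal.mem_comap] at this
      simpa using this
  obtain ⟨hz, hzQ⟩ := hz
  by_contra hm
  have hzm : ¬ z ∣ S.m := fun h => by
    obtain ⟨c, hc⟩ := h
    exact hm (by rw [hc, Nat.cast_mul]; exact Ideal.mul_mem_right _ _ hzQ)
  have := S.isGalois_F
  set P := Ideal.span {(z : ℤ)}
  have hzZ : Prime (z : ℤ) := Nat.prime_iff_prime_int.mp hz
  have hPmax : P.IsMaximal := PrincipalIdealRing.isMaximal_of_irreducible hzZ.irreducible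
  have hP0 : P ≠ ⊥ := by
    rw [Ne, Ideal.span_singleton_eq_bot]
    exact_mod_cast hz.ne_zero
  have : Q.LiesOver P := ⟨hPmax.eq_of_le (Ideal.IsPrime.ne_top inferInstance)
    (by rw [Ideal.span_singleton_le_iff_mem]; simpa using hzQ)⟩
  have : Finite (ℤ ⧸ P) :=
    have : NeZero z := ⟨hz.ne_zero⟩
    Finite.of_equiv _ (Int.quotientSpanNatEquivZMod z).symm.toEquiv
  have : Finite P.ResidueField :=
    Finite.of_surjective _ (Ideal.bijective_algebraMap_quotient_residueField _).2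
  have he : Q.ramificationIdx ℤ = 1 := by
    rw [← Ideal.ramificationIdxIn_eq_ramificationIdx P Q (S.F ≃ₐ[ℚ] S.F),
      ← Ideal.card_inertia_eq_ramificationIdxIn (G := S.F ≃ₐ[ℚ] S.F) P Q,
      S.inertia_eq_bot Q hQ hz hzQ hzm]
    exact Subgroup.card_bot
  have hne : P.map (algebraMap ℤ (𝓞 S.F)) ≠ ⊥ := by
    rw [Ideal.map_span, Set.image_singleton, Ne, Ideal.span_singleton_eq_bot, map_natCast]
    exact_mod_cast hz.ne_zero
  rw [Ideal.IsDedekindDomain.ramificationIdx_eq_multiplicity P Q hne] at he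
  obtain ⟨C, hC⟩ := Ideal.dvd_iff_le.2 (Ideal.map_le_of_le_comap
    (le_of_eq (Ideal.LiesOver.over (P := Q) (p := P))))
  refine not_dvd_differentIdeal_of_isCoprime ℤ Q C ?_ hC.symm (Ideal.dvd_iff_le.2 hd)
  rw [Ideal.isCoprime_iff_sup_eq]
  by_contra hne'
  have hCQ : C ≤ Q := le_sup_right.trans_eq
    ((inferInstance : Q.IsMaximal).eq_of_le hne' le_sup_left).symm
  obtain ⟨E, rfl⟩ := Ideal.dvd_iff_le.2 hCQ
  have hfin : FiniteMultiplicity Q (P.map (algebraMap ℤ (𝓞 S.F))) :=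
    FiniteMultiplicity.of_not_isUnit (fun hu => Ideal.IsPrime.ne_top inferInstance
      (Ideal.isUnit_iff.1 hu)) hne
  have h2 : Q ^ 2 ∣ P.map (algebraMap ℤ (𝓞 S.F)) := ⟨E, by rw [hC]; ring⟩
  have := hfin.le_multiplicity_of_pow_dvd h2
  omega

theorem exists_pow_mem_different :
    ∃ k₀ : ℕ, (S.m : 𝓞 S.F) ^ k₀ ∈ differentIdeal ℤ (𝓞 S.F) := by
  refine Ideal.mem_radical_iff.mp ?_
  rw [Ideal.radical_eq_sInf, Submodule.mem_sInf]
  rintro Q ⟨hle, hQ⟩
  have hQ0 : Q ≠ ⊥ := fun h => differentIdeal_ne_bot (le_bot_iff.mp (hle.trans h.le))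
  have : Ideal.IsPrime Q := hQ
  have := Ideal.IsPrime.isMaximal hQ hQ0
  exact S.m_mem_of_different_le Q hQ0 hle

/-- Levels exist for all large exponents. -/
theorem exists_level : ∃ k₀ : ℕ, ∀ k, k₀ ≤ k → ∀ l, 12 * k ≤ l →
    ∃ D : S.Level, D.k = k ∧ D.l = l := by
  classical
  obtain ⟨k₀, hk₀⟩ := S.exists_pow_mem_different
  refine ⟨max k₀ 2, fun k hk l hl => ⟨⟨k, l, le_of_max_le_right hk, hl, fun y hy => ?_⟩, rfl, rfl⟩⟩
  have hd : ((S.m ^ k : ℕ) : 𝓞 S.F) ∈ differentIdeal ℤ (𝓞 S.F) := by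
    rw [Nat.cast_pow]
    exact Ideal.pow_mem_of_pow_mem _ hk₀ (le_of_max_le_left hk)
  have hy' : y ∈ FractionalIdeal.dual ℤ ℚ (1 : FractionalIdeal (𝓞 S.F)⁰ S.F) := by
    rw [FractionalIdeal.mem_dual (one_ne_zero : (1 : FractionalIdeal (𝓞 S.F)⁰ S.F) ≠ 0)]
    intro a ha
    obtain ⟨o, rfl⟩ := (FractionalIdeal.mem_one_iff _).1 ha
    obtain ⟨t, ht⟩ := hy o
    rw [Algebra.traceForm_apply, RingHom.mem_range]
    exact ⟨t, ht.symm⟩
  have hmul : ((S.m ^ k : ℕ) : S.F) * y ∈ (1 : FractionalIdeal (𝓞 S.F)⁰ S.F) := by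
    have h1 := FractionalIdeal.mul_mem_mul
      (FractionalIdeal.mem_coeIdeal_of_mem (S := (𝓞 S.F)⁰) (P := S.F) hd) hy'
    rw [coeIdeal_differentIdeal ℤ ℚ S.F (𝓞 S.F), inv_mul_cancel₀ (by simp)] at h1
    simpa using h1
  obtain ⟨z, hz⟩ := (FractionalIdeal.mem_one_iff _).1 hmul
  exact ⟨z, hz⟩

end Setup

end FermatAgent.LTG

end
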