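import Mathlib
import Fermat.Agent.LT.General.Level.Trace

set_option autoImplicit false

/-!
# The box groups of the levels are good
-/

noncomputable section

open NumberField IsDedekindDomain
open FermatAgent.LT (galInt)

namespace FermatAgent.LTG

local notation "Qb" => AlgebraicClosure ℚ

namespace Setup

variable {S : Setup}

theorem three_dvd_m : 3 ∣ S.m := (by norm_num : 3 ∣ 6).trans S.six_dvd

theorem three_dvd_pow {R : Type*} [CommSemiring R] {n : ℕ} (hn : n ≠ 0) :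
    (3 : R) ∣ ((S.m ^ n : ℕ) : R) := by
  rw [show (3 : R) = ((3 : ℕ) : R) by norm_num]
  exact Nat.cast_dvd_cast ((dvd_pow_self 3 hn).trans (pow_dvd_pow_of_dvd three_dvd_m n))

theorem three_mul_mem_boxBF (σ : S.F ≃+* S.F) (x : 𝓞 S.F) : 3 * x ∈ S.boxBF σ := fun w _ _ =>
  ⟨1, fun h => w.isPrime.ne_top ((Ideal.eq_top_iff_one _).mpr h),
    x + galInt σ x + galInt σ (galInt σ x), by simp only [one_mul, map_mul, map_ofNat]; ring⟩

theorem three_mul_mem_boxBK (x : 𝓞 S.K) : 3 * x ∈ S.boxBK := fun v _ _ =>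
  ⟨1, fun h => v.isPrime.ne_top ((Ideal.eq_top_iff_one _).mpr h), x, one_mul _⟩

theorem IsGalGen.galInt_mem_boxBF {σ : S.F ≃+* S.F} (hσ : S.IsGalGen σ) {x : 𝓞 S.F}
    (hx : x ∈ S.boxBF σ) : galInt σ x ∈ S.boxBF σ := by
  intro w hw hf
  obtain ⟨s, hs, h⟩ := hx w hw hf
  refine ⟨s, hs, ?_⟩
  rwa [IsGalGen.galInt_cube hσ, show galInt σ x + galInt σ (galInt σ x) + x =
    x + galInt σ x + galInt σ (galInt σ x) by ring]

namespace Level

variable (D : S.Level)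

theorem lvl_pos : 0 < D.lvl := pow_pos (Nat.pos_of_ne_zero S.m_ne_zero) _

theorem M₁_dvd_lvl : D.M₁ ∣ D.lvl :=
  pow_dvd_pow _ (by have := D.l_ge; omega)

theorem M₁_dvd_M₂ : D.M₁ ∣ S.m ^ D.l := pow_dvd_pow _ (by have := D.l_ge; omega)

theorem natCast_pow_ne_zero {L : Type*} [Field L] [CharZero L] (n : ℕ) :
    ((S.m ^ n : ℕ) : L) ≠ 0 := Nat.cast_ne_zero.mpr (pow_ne_zero _ S.m_ne_zero)

theorem dvd_trace_natCast_mul {L : Type*} [Field L] [NumberField L] {M n : ℕ} (h : M ∣ n)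
    (o : 𝓞 L) : (M : ℤ) ∣ Algebra.trace ℤ (𝓞 L) ((n : 𝓞 L) * o) := by
  rw [← nsmul_eq_mul, map_nsmul, nsmul_eq_mul]
  exact (Int.natCast_dvd_natCast.mpr h).mul_right _

/-- The dual of the integers lies deep. -/
theorem dual_dvd {y : 𝓞 S.F}
    (h : ∀ o : 𝓞 S.F, (D.M₁ : ℤ) ∣ Algebra.trace ℤ (𝓞 S.F) (y * o)) :
    ((S.m ^ (3 * D.k) : ℕ) : 𝓞 S.F) ∣ y := by
  have hM : (D.M₁ : S.F) ≠ 0 := natCast_pow_ne_zero _
  obtain ⟨z, hz⟩ := D.diff ((y : S.F) / (D.M₁ : S.F)) fun o => by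
    obtain ⟨t, ht⟩ := h o
    refine ⟨t, mul_left_cancel₀ (b := Algebra.trace ℚ S.F _)
      (Nat.cast_ne_zero.mpr (pow_ne_zero _ S.m_ne_zero) : (D.M₁ : ℚ) ≠ 0) ?_⟩
    rw [← nsmul_eq_mul, ← map_nsmul, nsmul_eq_mul, ← mul_assoc, mul_div_cancel₀ _ hM]
    show Algebra.trace ℚ S.F (((y * o : 𝓞 S.F)) : S.F) = _
    rw [← coe_trace_int, ht]
    push_cast
    rfl
  refine ⟨z, RingOfIntegers.ext ?_⟩
  rw [RingOfIntegers.coe_eq_algebraMap, RingOfIntegers.coe_eq_algebraMap, map_mul, map_natCast,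
    ← RingOfIntegers.coe_eq_algebraMap, ← RingOfIntegers.coe_eq_algebraMap, hz, ← mul_assoc, ← Nat.cast_mul, ← pow_add,
    show 3 * D.k + D.k = 4 * D.k by ring, ← M₁]
  rw [mul_div_cancel₀ _ hM]

theorem dual_dvd_K {σ : S.F ≃+* S.F} (hσ : S.IsGalGen σ) {y : 𝓞 S.K} (h : y ∈ D.boxAK) :
    ((S.m ^ (3 * D.k) : ℕ) : 𝓞 S.K) ∣ y := by
  have h' : ((S.m ^ (3 * D.k) : ℕ) : 𝓞 S.F) ∣ S.inclInt y := D.dual_dvd fun o => by
    obtain ⟨r, hr, htr⟩ := IsGalGen.trace_int hσ (S.inclInt y * o)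
    obtain ⟨r', hr', -⟩ := IsGalGen.trace_int hσ o
    rw [htr, show r = y * r' from RingOfIntegers.ext (S.inclKF.injective (congrArg
      (fun t : 𝓞 S.F => (t : S.F)) (show S.inclInt r = S.inclInt (y * r') by
        rw [map_mul, hr, hr', map_mul, map_mul, IsGalGen.galInt_inclInt hσ,
          IsGalGen.galInt_inclInt hσ]; ring)))]
    exact h r'
  obtain ⟨z, hz⟩ := h'
  have hint : IsIntegral ℤ ((y : S.K) / ((S.m ^ (3 * D.k) : ℕ) : S.K)) := by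
    refine (isIntegral_algHom_iff (S.inclKF.restrictScalars ℤ) S.inclKF.injective).mp ?_
    show IsIntegral ℤ (S.inclKF _)
    rw [map_div₀, map_natCast, ← coe_inclInt, hz, RingOfIntegers.coe_eq_algebraMap, map_mul, map_natCast,
      mul_div_cancel_left₀ _ (natCast_pow_ne_zero _)]
    exact RingOfIntegers.isIntegral_coe z
  refine ⟨⟨_, hint⟩, RingOfIntegers.ext ?_⟩
  simp only [RingOfIntegers.coe_eq_algebraMap, map_mul, map_natCast]
  exact (mul_div_cancel₀ _ (natCast_pow_ne_zero _)).symm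

theorem boxAF_deep (σ : S.F ≃+* S.F) {a : 𝓞 S.F} (ha : a ∈ D.boxAF σ) :
    ((S.m ^ (3 * D.k - 1) : ℕ) : 𝓞 S.F) ∣ a := by
  obtain ⟨z, hz⟩ := D.dual_dvd (y := 3 * a) fun o => by
    have h := ha (3 * o) (three_mul_mem_boxBF σ o)
    rwa [show 3 * a * o = a * (3 * o) by ring]
  obtain ⟨m', hm'⟩ := three_dvd_m (S := S)
  refine ⟨(m' : 𝓞 S.F) * z, mul_left_cancel₀ (by norm_num : (3 : 𝓞 S.F) ≠ 0) ?_⟩
  have h1 : S.m ^ (3 * D.k) = S.m ^ (3 * D.k - 1) * (3 * m') := by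
    conv_rhs => rw [← hm', ← pow_succ]
    congr 1
    have := D.two_le
    omega
  rw [hz, h1]
  push_cast
  ring

theorem boxAF_galInt {σ : S.F ≃+* S.F} (hσ : S.IsGalGen σ) {a : 𝓞 S.F} (ha : a ∈ D.boxAF σ) :
    galInt σ a ∈ D.boxAF σ := fun b hb => by
  rw [← trace_galInt σ, ← trace_galInt σ, map_mul, map_mul, IsGalGen.galInt_cube hσ]
  exact ha _ (IsGalGen.galInt_mem_boxBF hσ (IsGalGen.galInt_mem_boxBF hσ hb))

theorem isGood_boxF (σ : S.F ≃+* S.F) : (D.boxF σ).IsGood := by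
  have hk := D.two_le
  have hl := D.l_ge
  have hAB : ∀ a ∈ D.boxAF σ, ∀ b : 𝓞 S.F, a * b ∈ S.boxBF σ := fun a ha b => by
    obtain ⟨c, hc⟩ := (three_dvd_pow (n := 3 * D.k - 1) (by omega)).trans (D.boxAF_deep σ ha)
    rw [hc, mul_assoc]
    exact three_mul_mem_boxBF σ _
  have h3 : ∀ n : ℕ, n ≠ 0 → ∀ o, ((S.m ^ n : ℕ) : 𝓞 S.F) * o ∈ S.boxBF σ := fun n hn o => by
    obtain ⟨c, hc⟩ := three_dvd_pow (S := S) (R := 𝓞 S.F) hn
    rw [hc, mul_assoc]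
    exact three_mul_mem_boxBF σ _
  constructor
  · exact D.lvl_pos
  · exact D.M₁_dvd_lvl
  · intro o b _
    rw [mul_assoc]
    exact dvd_trace_natCast_mul D.M₁_dvd_lvl _
  · exact h3 (D.l + 2) (by omega)
  · intro o
    refine ⟨((S.m ^ 2 : ℕ) : 𝓞 S.F) * o, h3 2 (by omega) o, ?_⟩
    show ((S.m ^ (D.l + 2) : ℕ) : 𝓞 S.F) * o = _
    rw [← mul_assoc, ← Nat.cast_mul, ← pow_add]
  · intro a ha a' ha' b hb
    rw [mul_assoc]
    exact ha _ (hAB a' ha' b)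
  · exact fun a ha b _ => hAB a ha b
  · intro b _ b' _ c _
    rw [mul_assoc]
    exact dvd_trace_natCast_mul D.M₁_dvd_M₂ _
  · exact fun a ha b hb => ha b hb
  · intro v hv a ha
    obtain ⟨z, rfl⟩ := D.boxAF_deep σ ha
    refine Ideal.mul_mem_right _ _ ?_
    rw [Nat.cast_pow]
    refine Ideal.pow_mem_of_mem _ (v.isPrime.mem_of_pow_mem (D.l + 2) ?_) _ (by omega)
    rwa [← Nat.cast_pow]
  · intro v hv
    rw [Nat.cast_pow]
    refine Ideal.pow_mem_of_mem _ (v.isPrime.mem_of_pow_mem (D.l + 2) ?_) _ (by omega)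
    rwa [← Nat.cast_pow]

theorem isGood_boxK : D.boxK.IsGood := by
  obtain ⟨σ, hσ⟩ := S.exists_isGalGen
  have hk := D.two_le
  have hl := D.l_ge
  have hAB : ∀ a ∈ D.boxAK, ∀ b : 𝓞 S.K, a * b ∈ S.boxBK := fun a ha b => by
    obtain ⟨c, hc⟩ := (three_dvd_pow (n := 3 * D.k) (by omega)).trans (D.dual_dvd_K hσ ha)
    rw [hc, mul_assoc]
    exact three_mul_mem_boxBK _
  have h3 : ∀ n : ℕ, n ≠ 0 → ∀ o, ((S.m ^ n : ℕ) : 𝓞 S.K) * o ∈ S.boxBK := fun n hn o => by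
    obtain ⟨c, hc⟩ := three_dvd_pow (S := S) (R := 𝓞 S.K) hn
    rw [hc, mul_assoc]
    exact three_mul_mem_boxBK _
  constructor
  · exact D.lvl_pos
  · exact D.M₁_dvd_lvl
  · intro o b
    rw [mul_assoc]
    exact dvd_trace_natCast_mul D.M₁_dvd_lvl _
  · exact h3 (D.l + 2) (by omega)
  · intro o
    refine ⟨((S.m ^ 2 : ℕ) : 𝓞 S.K) * o, h3 2 (by omega) o, ?_⟩
    show ((S.m ^ (D.l + 2) : ℕ) : 𝓞 S.K) * o = _
    rw [← mul_assoc, ← Nat.cast_mul, ← pow_add]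
  · intro a ha a' ha' o
    rw [mul_assoc]
    exact ha _
  · exact fun a ha b _ => hAB a ha b
  · intro b _ b' _ o
    rw [mul_assoc]
    exact dvd_trace_natCast_mul D.M₁_dvd_M₂ _
  · exact fun a ha b _ => ha b
  · intro v hv a ha
    obtain ⟨z, rfl⟩ := D.dual_dvd_K hσ ha
    refine Ideal.mul_mem_right _ _ ?_
    rw [Nat.cast_pow]
    refine Ideal.pow_mem_of_mem _ (v.isPrime.mem_of_pow_mem (D.l + 2) ?_) _ (by omega)
    rwa [← Nat.cast_pow]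
  · intro v hv
    rw [Nat.cast_pow]
    refine Ideal.pow_mem_of_mem _ (v.isPrime.mem_of_pow_mem (D.l + 2) ?_) _ (by omega)
    rwa [← Nat.cast_pow]

end Level

end Setup

end FermatAgent.LTG

end
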