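import Mathlib
import Fermat.Agent.LT.General.Box
import Fermat.Agent.LT.Descent.Kernel.CosetOp

set_option autoImplicit false

/-!
# Lifts of residual matrices to the adelic group

An adelic matrix is near an integral matrix when at every place it is integral invertible and
congruent to it modulo the level.
-/

noncomputable section

open NumberField IsDedekindDomain WithZero
open FermatAgent.LT (Cosets GAf IntAd intToAdele rightOp loc galInt galGAf congrSubgroup)
open FermatAgent.LT.CO (locMat locCongr SmallM lvl)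

namespace FermatAgent.LTG

variable {L : Type*} [Field L] [NumberField L]

/-- An integral matrix seen at a place. -/
def oMat (v : HeightOneSpectrum (𝓞 L)) :
    Matrix (Fin 2) (Fin 2) (𝓞 L) →+* Matrix (Fin 2) (Fin 2) (v.adicCompletion L) :=
  ((loc v).comp (algebraMap (𝓞 L) L)).mapMatrix

theorem oMat_apply (v : HeightOneSpectrum (𝓞 L)) (o : Matrix (Fin 2) (Fin 2) (𝓞 L)) (i j : Fin 2) :
    oMat v o i j = loc v (o i j : L) := rfl

theorem smallM_oMat (v : HeightOneSpectrum (𝓞 L)) (o : Matrix (Fin 2) (Fin 2) (𝓞 L)) :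
    SmallM v 0 (oMat v o) :=
  LT.CO.smallM_of_le_one fun _ _ => LT.CO.valued_int_le_one _

namespace Box

variable (P : Box L)

theorem natCast_N_ne_zero (hN : 0 < P.N) : (P.N : 𝓞 L) ≠ 0 := Nat.cast_ne_zero.mpr hN.ne'

theorem lvlIdeal_ne_bot (hN : 0 < P.N) : P.lvlIdeal ≠ ⊥ := by
  rw [lvlIdeal, Ne, Ideal.span_singleton_eq_bot]
  exact natCast_N_ne_zero P hN

theorem finite_residue_lvl (hN : 0 < P.N) : Finite (𝓞 L ⧸ P.lvlIdeal) :=
  Ideal.finiteQuotientOfFreeOfNeBot _ (lvlIdeal_ne_bot P hN)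

theorem lvl_eq_zero_of_notMem (hN : 0 < P.N) {v : HeightOneSpectrum (𝓞 L)}
    (hv : (P.N : 𝓞 L) ∉ v.asIdeal) : lvl P.lvlIdeal v = 0 :=
  LT.CO.lvl_eq_zero (lvlIdeal_ne_bot P hN) fun h => hv (h (Ideal.mem_span_singleton_self _))

theorem valued_natCast_N (hN : 0 < P.N) (v : HeightOneSpectrum (𝓞 L)) :
    Valued.v (loc v ((P.N : 𝓞 L) : L)) = exp (-(lvl P.lvlIdeal v : ℤ)) := by
  have h0 : 0 ≤ LT.ordAt v P.lvlIdeal := FractionalIdeal.count_coe_nonneg L v _
  rw [LT.valued_int v (natCast_N_ne_zero P hN), lvl, Int.toNat_of_nonneg h0]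

theorem valued_le_of_mem (hN : 0 < P.N) {x : 𝓞 L} (hx : x ∈ P.lvlIdeal)
    (v : HeightOneSpectrum (𝓞 L)) :
    Valued.v (loc v (x : L)) ≤ exp (-(lvl P.lvlIdeal v : ℤ)) := by
  obtain ⟨c, rfl⟩ := Ideal.mem_span_singleton.mp hx
  rw [RingOfIntegers.coe_eq_algebraMap, map_mul, map_mul, map_mul,
    ← RingOfIntegers.coe_eq_algebraMap, valued_natCast_N P hN]
  exact mul_le_of_le_one_right' (LT.CO.valued_int_le_one c)

/-- The adelic matrix `g` reduces to the residual matrix of `o`. -/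
def Near (g : GAf L) (o : Matrix (Fin 2) (Fin 2) (𝓞 L)) : Prop :=
  ∀ v, locMat v g ∈ locCongr v 0 ∧ SmallM v (lvl P.lvlIdeal v) ((locMat v g).val - oMat v o)

variable {P} {g h : GAf L} {o o' : Matrix (Fin 2) (Fin 2) (𝓞 L)}

theorem Near.one : P.Near 1 1 := fun v => by
  rw [map_one, map_one, Units.val_one, sub_self]
  exact ⟨one_mem _, fun i j => by simp⟩

theorem Near.mul (h1 : P.Near g o) (h2 : P.Near h o') : P.Near (g * h) (o * o') := fun v => by
  obtain ⟨a1, a2⟩ := h1 v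
  obtain ⟨b1, b2⟩ := h2 v
  rw [map_mul, map_mul, Units.val_mul]
  refine ⟨mul_mem a1 b1, ?_⟩
  rw [show (locMat v g).val * (locMat v h).val - oMat v o * oMat v o' =
    ((locMat v g).val - oMat v o) * (locMat v h).val +
      oMat v o * ((locMat v h).val - oMat v o') by noncomm_ring]
  refine SmallM.add ?_ ?_
  · simpa using a2.mul (LT.CO.smallM_of_mem b1)
  · simpa using (smallM_oMat v o).mul b2

theorem Near.congr (hN : 0 < P.N) (h1 : P.Near g o)
    (e : o.map (Ideal.Quotient.mk P.lvlIdeal) = o'.map (Ideal.Quotient.mk P.lvlIdeal)) :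
    P.Near g o' := fun v => by
  obtain ⟨a1, a2⟩ := h1 v
  refine ⟨a1, ?_⟩
  rw [show (locMat v g).val - oMat v o' =
    ((locMat v g).val - oMat v o) + (oMat v o - oMat v o') by noncomm_ring]
  refine SmallM.add a2 fun i j => ?_
  rw [Matrix.sub_apply, oMat_apply, oMat_apply, ← map_sub, RingOfIntegers.coe_eq_algebraMap,
    RingOfIntegers.coe_eq_algebraMap, ← map_sub, ← RingOfIntegers.coe_eq_algebraMap]
  exact valued_le_of_mem P hN (Ideal.Quotient.eq.mp (congrFun (congrFun e i) j)) v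

theorem Near.inv_mul_mem (hN : 0 < P.N) (h1 : P.Near g o) (h2 : P.Near h o) :
    g⁻¹ * h ∈ congrSubgroup P.lvlIdeal := by
  refine (LT.CO.mem_congr_iff (lvlIdeal_ne_bot P hN)).mpr fun v => ?_
  obtain ⟨a1, a2⟩ := h1 v
  obtain ⟨b1, b2⟩ := h2 v
  rw [map_mul, map_inv]
  refine LT.CO.inv_mul_mem_locCongr a1 b1 ?_
  rw [show (locMat v h).val - (locMat v g).val =
    ((locMat v h).val - oMat v o) + -((locMat v g).val - oMat v o) by noncomm_ring]
  exact SmallM.add b2 (SmallM.neg a2)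

theorem Near.conj_mem (hN : 0 < P.N) (h1 : P.Near g o) {u : GAf L}
    (hu : u ∈ congrSubgroup P.lvlIdeal) : g⁻¹ * u * g ∈ congrSubgroup P.lvlIdeal := by
  refine (LT.CO.mem_congr_iff (lvlIdeal_ne_bot P hN)).mpr fun v => ?_
  have h2 := LT.CO.conj_mem_locCongr (inv_mem (h1 v).1)
    ((LT.CO.mem_congr_iff (lvlIdeal_ne_bot P hN)).mp hu v)
  rwa [inv_inv, ← map_inv, ← map_mul, ← map_mul] at h2

theorem Near.cosetFam (hN : 0 < P.N) (h1 : P.Near g o) :
    LT.CO.CosetFam P.lvlIdeal fun _ : Unit => g :=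
  ⟨fun _ hu _ => ⟨(), h1.conj_mem hN hu⟩, fun _ _ _ => rfl⟩

theorem Near.rightOp_mk (hN : 0 < P.N) (h1 : P.Near g o) (f : Cosets P.lvlIdeal → ℂ) (x : GAf L) :
    rightOp P.lvlIdeal g f (x : Cosets P.lvlIdeal) = f ((x * g : GAf L) : Cosets P.lvlIdeal) := by
  simpa using LT.CO.sum_rightOp_mk (h1.cosetFam hN) f x

theorem Near.mk_mul_eq (hN : 0 < P.N) (h1 : P.Near g o) (h2 : P.Near h o) (x : GAf L) :
    ((x * g : GAf L) : Cosets P.lvlIdeal) = ((x * h : GAf L) : Cosets P.lvlIdeal) :=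
  LT.CO.mk_eq_of_inv_mul (by
    rw [show (x * g)⁻¹ * (x * h) = g⁻¹ * h by group]
    exact h1.inv_mul_mem hN h2)

theorem Near.galGAf (hN : 0 < P.N) (σ : L ≃+* L) (h1 : P.Near g o) :
    P.Near (LT.galGAf σ g) (o.map (galInt σ)) := fun v => by
  obtain ⟨a1, a2⟩ := h1 (LT.galPlace σ v)
  have hmap : P.lvlIdeal.map (galInt σ) = P.lvlIdeal := by
    rw [lvlIdeal, Ideal.map_span, Set.image_singleton, map_natCast]
  rw [LT.CO.locMat_galGAf]
  refine ⟨(LT.CO.map_galLoc_mem σ v).mpr a1, fun i j => ?_⟩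
  rw [← LT.CO.lvl_galPlace (lvlIdeal_ne_bot P hN) hmap v, Matrix.sub_apply,
    Matrix.GeneralLinearGroup.map_apply, oMat_apply, Matrix.map_apply, LT.galInt_coe,
    ← LT.galLoc_coe σ v, ← map_sub, LT.CO.valued_galLoc]
  exact a2 i j

/-- An integral matrix invertible modulo the level has a lift. -/
theorem exists_isLiftOf (hN : 0 < P.N)
    (hdet : ∀ v : HeightOneSpectrum (𝓞 L), (P.N : 𝓞 L) ∈ v.asIdeal → o.det ∉ v.asIdeal) :
    ∃ k, P.IsLiftOf k (o.map (Ideal.Quotient.mk P.lvlIdeal)) := by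
  classical
  let π : 𝓞 L →+* IntAd L :=
    RingHom.pi fun v : HeightOneSpectrum (𝓞 L) => algebraMap (𝓞 L) (v.adicCompletionIntegers L)
  let E : Matrix (Fin 2) (Fin 2) (IntAd L) := Matrix.of fun i j v =>
    if (P.N : 𝓞 L) ∈ v.asIdeal then π (o i j) v else (1 : Matrix (Fin 2) (Fin 2) _) i j
  have hE : IsUnit E.det := by
    refine Pi.isUnit_iff.mpr fun v => ?_
    rw [show E.det v = Pi.evalRingHom _ v E.det from rfl, RingHom.map_det]
    by_cases hv : (P.N : 𝓞 L) ∈ v.asIdeal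
    · have e : (Pi.evalRingHom (fun v : HeightOneSpectrum (𝓞 L) =>
          v.adicCompletionIntegers L) v).mapMatrix E =
          (algebraMap (𝓞 L) (v.adicCompletionIntegers L)).mapMatrix o :=
        Matrix.ext fun i j => if_pos hv
      rw [e, ← RingHom.map_det]
      refine (Valuation.Integers.isUnit_iff_valuation_eq_one
        (Valuation.valuationSubring.integers _)).mpr ?_
      show Valued.v (loc v ((o.det : 𝓞 L) : L)) = 1
      rw [LT.valued_loc, RingOfIntegers.coe_eq_algebraMap,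
        HeightOneSpectrum.valuation_of_algebraMap, HeightOneSpectrum.intValuation_eq_one_iff]
      exact hdet v hv
    · have e : (Pi.evalRingHom (fun v : HeightOneSpectrum (𝓞 L) =>
          v.adicCompletionIntegers L) v).mapMatrix E = 1 :=
        Matrix.ext fun i j => if_neg hv
      rw [e, Matrix.det_one]
      exact isUnit_one
  refine ⟨((Matrix.isUnit_iff_isUnit_det E).mpr hE).unit, o, rfl, fun i j => ?_⟩
  rw [IsUnit.unit_spec]
  have hsp : P.lvlIdeal.map π = Ideal.span {π (P.N : 𝓞 L)} := by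
    rw [lvlIdeal, Ideal.map_span, Set.image_singleton]
  show E i j - π (o i j) ∈ P.lvlIdeal.map π
  rw [hsp, Ideal.mem_span_singleton]
  have hy : ∀ v : HeightOneSpectrum (𝓞 L),
      ((E i j v - π (o i j) v : v.adicCompletionIntegers L) : v.adicCompletion L) /
        loc v ((P.N : 𝓞 L) : L) ∈ v.adicCompletionIntegers L := by
    intro v
    by_cases hv : (P.N : 𝓞 L) ∈ v.asIdeal
    · rw [show E i j v = π (o i j) v from if_pos hv, sub_self, ZeroMemClass.coe_zero, zero_div]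
      exact zero_mem _
    · show Valued.v (((E i j v - π (o i j) v : v.adicCompletionIntegers L) : v.adicCompletion L) /
        loc v ((P.N : 𝓞 L) : L)) ≤ 1
      rw [map_div₀, valued_natCast_N P hN, lvl_eq_zero_of_notMem P hN hv, Nat.cast_zero, neg_zero,
        exp_zero, div_one]
      exact (E i j v - π (o i j) v).2
  refine ⟨fun v => ⟨_, hy v⟩, funext fun v => Subtype.ext ?_⟩
  show ((E i j v - π (o i j) v : v.adicCompletionIntegers L) : v.adicCompletion L) =
    loc v ((P.N : 𝓞 L) : L) * _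
  rw [mul_div_cancel₀]
  intro h
  have := valued_natCast_N P hN v
  rw [h, map_zero] at this
  exact exp_ne_zero this.symm

theorem IsLiftOf.near (hN : 0 < P.N) {k : GL (Fin 2) (IntAd L)}
    (hk : P.IsLiftOf k (o.map (Ideal.Quotient.mk P.lvlIdeal))) :
    P.Near (Matrix.GeneralLinearGroup.map intToAdele k) o := by
  obtain ⟨o₁, ho₁, hmem⟩ := hk
  refine Near.congr hN (o := o₁) (fun v => ⟨?_, fun i j => ?_⟩) ho₁
  · refine LT.CO.mem_locCongr_zero.mpr ⟨LT.CO.smallM_of_le_one fun i j => (k.val i j v).2,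
      LT.CO.smallM_of_le_one fun i j => ?_⟩
    rw [← map_inv, ← map_inv]
    exact (k⁻¹.val i j v).2
  · refine le_of_eq_of_le (congrArg Valued.v ?_)
      (LT.CO.valued_le_of_mem_map (lvlIdeal_ne_bot P hN) (hmem i j) v)
    rfl

theorem near_lift (hN : 0 < P.N)
    (hdet : ∀ v : HeightOneSpectrum (𝓞 L), (P.N : 𝓞 L) ∈ v.asIdeal → o.det ∉ v.asIdeal) :
    P.Near (P.lift (o.map (Ideal.Quotient.mk P.lvlIdeal))) o := by
  have h := exists_isLiftOf hN hdet
  rw [lift, dif_pos h]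
  exact IsLiftOf.near hN h.choose_spec

end Box

end FermatAgent.LTG

end
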