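import Mathlib
import Fermat.Agent.LT.General.Level.Lift

set_option autoImplicit false

/-!
# The box group modulo the level and its character
-/

noncomputable section

open NumberField IsDedekindDomain Matrix
open scoped ComplexConjugate
open FermatAgent.LT (Cosets GAf galInt)

namespace FermatAgent.LTG

theorem ratChar_add (M : ℕ) (s t : ℤ) : ratChar M (s + t) = ratChar M s * ratChar M t := by
  rw [ratChar, ratChar, ratChar, ← Complex.exp_add, Int.cast_add]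
  congr 1
  ring

theorem ratChar_zero (M : ℕ) : ratChar M 0 = 1 := by simp [ratChar]

theorem ratChar_of_dvd {M : ℕ} {t : ℤ} (h : (M : ℤ) ∣ t) : ratChar M t = 1 := by
  obtain ⟨n, rfl⟩ := h
  rcases eq_or_ne M 0 with rfl | hM
  · simp [ratChar]
  rw [ratChar, ← Complex.exp_int_mul_two_pi_mul_I n]
  congr 1
  push_cast
  field_simp

theorem ratChar_congr {M : ℕ} {s t : ℤ} (h : (M : ℤ) ∣ s - t) : ratChar M s = ratChar M t := by
  rw [← sub_add_cancel s t, ratChar_add, ratChar_of_dvd h, one_mul]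

theorem ratChar_neg (M : ℕ) (t : ℤ) : ratChar M (-t) = conj (ratChar M t) := by
  rw [ratChar, ratChar, ← Complex.exp_conj]
  congr 1
  simp [Complex.conj_ofReal, map_ofNat]

theorem ratChar_ne_zero (M : ℕ) (t : ℤ) : ratChar M t ≠ 0 := Complex.exp_ne_zero _

variable {L : Type*} [Field L] [NumberField L]

namespace Box

variable (P : Box L)

/-- The integral matrix with the given parameters. -/
def oBox (a b c d : 𝓞 L) : Matrix (Fin 2) (Fin 2) (𝓞 L) := !![1 + a, b; (P.M₂ : 𝓞 L) * c, 1 + d]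

theorem resMat_eq (a b c d : 𝓞 L) :
    P.resMat a b c d = (P.oBox a b c d).map (Ideal.Quotient.mk P.lvlIdeal) := rfl

variable {P}

theorem oBox_mul (a b c d a' b' c' d' : 𝓞 L) :
    P.oBox a b c d * P.oBox a' b' c' d' = P.oBox
      (a + a' + a * a' + (P.M₂ : 𝓞 L) * (b * c')) (b + b' + a * b' + b * d')
      (c + c' + c * a' + d * c') (d + d' + d * d' + (P.M₂ : 𝓞 L) * (c * b')) := by
  refine Matrix.ext fun i j => ?_
  fin_cases i <;> fin_cases j <;> simp [oBox, Matrix.mul_apply, Fin.sum_univ_two] <;> ring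

theorem resSet_finite (hN : 0 < P.N) : P.resSet.Finite := by
  have := finite_residue_lvl P hN
  exact Set.toFinite _

variable (hP : P.IsGood)
include hP

theorem IsGood.mul_params {a b c d a' b' c' d' : 𝓞 L} (ha : a ∈ P.A) (hb : b ∈ P.B) (hc : c ∈ P.B)
    (hd : d ∈ P.A) (ha' : a' ∈ P.A) (hb' : b' ∈ P.B) (hc' : c' ∈ P.B) (hd' : d' ∈ P.A) :
    a + a' + a * a' + (P.M₂ : 𝓞 L) * (b * c') ∈ P.A ∧ b + b' + a * b' + b * d' ∈ P.B ∧
      c + c' + c * a' + d * c' ∈ P.B ∧ d + d' + d * d' + (P.M₂ : 𝓞 L) * (c * b') ∈ P.A := by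
  refine ⟨add_mem (add_mem (add_mem ha ha') (hP.mul_A a ha a' ha')) (hP.mul_BB b hb c' hc'),
    add_mem (add_mem (add_mem hb hb') (hP.mul_AB a ha b' hb')) ?_,
    add_mem (add_mem (add_mem hc hc') ?_) (hP.mul_AB d hd c' hc'),
    add_mem (add_mem (add_mem hd hd') (hP.mul_A d hd d' hd')) (hP.mul_BB c hc b' hb')⟩
  · rw [mul_comm]; exact hP.mul_AB d' hd' b hb
  · rw [mul_comm]; exact hP.mul_AB a' ha' c hc

omit hP in
theorem one_mem_resSet : (1 : Matrix (Fin 2) (Fin 2) (𝓞 L ⧸ P.lvlIdeal)) ∈ P.resSet :=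
  ⟨0, zero_mem _, 0, zero_mem _, 0, zero_mem _, 0, zero_mem _, by
    refine Matrix.ext fun i j => ?_
    fin_cases i <;> fin_cases j <;> simp [resMat]⟩

theorem IsGood.mul_mem_resSet {M M' : Matrix (Fin 2) (Fin 2) (𝓞 L ⧸ P.lvlIdeal)}
    (h : M ∈ P.resSet) (h' : M' ∈ P.resSet) : M * M' ∈ P.resSet := by
  obtain ⟨a, ha, b, hb, c, hc, d, hd, rfl⟩ := h
  obtain ⟨a', ha', b', hb', c', hc', d', hd', rfl⟩ := h'
  obtain ⟨h1, h2, h3, h4⟩ := hP.mul_params ha hb hc hd ha' hb' hc' hd'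
  exact ⟨_, h1, _, h2, _, h3, _, h4, by rw [resMat_eq, resMat_eq, resMat_eq, ← oBox_mul, Matrix.map_mul]⟩

theorem IsGood.det_notMem {a b c d : 𝓞 L} (ha : a ∈ P.A) (hd : d ∈ P.A)
    {v : HeightOneSpectrum (𝓞 L)} (hv : (P.N : 𝓞 L) ∈ v.asIdeal) :
    (P.oBox a b c d).det ∉ v.asIdeal := by
  intro h
  refine v.isPrime.ne_top ((Ideal.eq_top_iff_one _).mpr ?_)
  rw [show (1 : 𝓞 L) = (P.oBox a b c d).det - ((a + d + a * d) - (P.M₂ : 𝓞 L) * (b * c)) by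
    simp [oBox, Matrix.det_fin_two]; ring]
  exact sub_mem h (sub_mem (add_mem (add_mem (hP.nilp v hv a ha) (hP.nilp v hv d hd))
    (Ideal.mul_mem_left _ _ (hP.nilp v hv d hd))) (Ideal.mul_mem_right _ _ (hP.M₂_mem v hv)))

theorem IsGood.isUnit_of_mem {M : Matrix (Fin 2) (Fin 2) (𝓞 L ⧸ P.lvlIdeal)} (h : M ∈ P.resSet) :
    IsUnit M := by
  obtain ⟨a, ha, b, hb, c, hc, d, hd, rfl⟩ := h
  rw [Matrix.isUnit_iff_isUnit_det, resMat_eq, ← RingHom.mapMatrix_apply, ← RingHom.map_det]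
  have htop : Ideal.span {(P.oBox a b c d).det} ⊔ P.lvlIdeal = ⊤ := by
    by_contra hne
    obtain ⟨m, hm, hle⟩ := Ideal.exists_le_maximal _ hne
    have hN : (P.N : 𝓞 L) ∈ m := hle (Ideal.mem_sup_right (Ideal.mem_span_singleton_self _))
    have hne0 : m ≠ ⊥ := fun e => natCast_N_ne_zero P hP.pos (by simpa [e] using hN)
    exact hP.det_notMem (b := b) (c := c) ha hd (v := ⟨m, hm.isPrime, hne0⟩) hN
      (hle (Ideal.mem_sup_left (Ideal.mem_span_singleton_self _)))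
  obtain ⟨x, hx, y, hy, hxy⟩ := Submodule.mem_sup.mp (htop ▸ Submodule.mem_top : (1 : 𝓞 L) ∈ _)
  obtain ⟨z, rfl⟩ := Ideal.mem_span_singleton.mp hx
  refine IsUnit.of_mul_eq_one (Ideal.Quotient.mk _ z) ?_
  rw [← map_mul, ← map_one (Ideal.Quotient.mk P.lvlIdeal), ← hxy, map_add,
    Ideal.Quotient.eq_zero_iff_mem.mpr hy, add_zero]

theorem IsGood.mul_bijOn {M : Matrix (Fin 2) (Fin 2) (𝓞 L ⧸ P.lvlIdeal)} (h : M ∈ P.resSet) :
    Set.BijOn (M * ·) P.resSet P.resSet :=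
  ((resSet_finite hP.pos).injOn_iff_bijOn_of_mapsTo fun _ hx => hP.mul_mem_resSet h hx).mp
    fun _ _ _ _ e => (hP.isUnit_of_mem h).mul_left_cancel e

theorem IsGood.exists_inv {M : Matrix (Fin 2) (Fin 2) (𝓞 L ⧸ P.lvlIdeal)} (h : M ∈ P.resSet) :
    ∃ M' ∈ P.resSet, M * M' = 1 ∧ M' * M = 1 := by
  obtain ⟨M', hM', e⟩ := (hP.mul_bijOn h).surjOn one_mem_resSet
  exact ⟨M', hM', e, mul_eq_one_comm.mp e⟩

theorem IsGood.chi_eq {b : 𝓞 L} (hb : b ∈ P.B) {M : Matrix (Fin 2) (Fin 2) (𝓞 L ⧸ P.lvlIdeal)}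
    (h : M 0 1 = Ideal.Quotient.mk P.lvlIdeal b) :
    P.chi M = ratChar P.M₁ (Algebra.trace ℤ (𝓞 L) b) := by
  have he : ∃ b ∈ P.B, Ideal.Quotient.mk P.lvlIdeal b = M 0 1 := ⟨b, hb, h.symm⟩
  rw [chi, dif_pos he]
  refine ratChar_congr ?_
  obtain ⟨o, ho⟩ := Ideal.mem_span_singleton.mp
    (Ideal.Quotient.eq.mp (he.choose_spec.2.trans h))
  rw [← map_sub, ho, ← nsmul_eq_mul, map_nsmul, nsmul_eq_mul]
  exact (Int.natCast_dvd_natCast.mpr hP.M₁_dvd).mul_right _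

theorem IsGood.chi_resMat {a b c d : 𝓞 L} (hb : b ∈ P.B) :
    P.chi (P.resMat a b c d) = ratChar P.M₁ (Algebra.trace ℤ (𝓞 L) b) :=
  hP.chi_eq hb (by simp [resMat])

theorem IsGood.chi_one : P.chi 1 = 1 := by
  rw [hP.chi_eq (zero_mem _) (by simp), map_zero, ratChar_zero]

theorem IsGood.chi_ne_zero {M : Matrix (Fin 2) (Fin 2) (𝓞 L ⧸ P.lvlIdeal)} (h : M ∈ P.resSet) :
    P.chi M ≠ 0 := by
  obtain ⟨a, ha, b, hb, c, hc, d, hd, rfl⟩ := h
  rw [hP.chi_resMat hb]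
  exact ratChar_ne_zero _ _

theorem IsGood.chi_mul {M M' : Matrix (Fin 2) (Fin 2) (𝓞 L ⧸ P.lvlIdeal)}
    (h : M ∈ P.resSet) (h' : M' ∈ P.resSet) : P.chi (M * M') = P.chi M * P.chi M' := by
  obtain ⟨a, ha, b, hb, c, hc, d, hd, rfl⟩ := h
  obtain ⟨a', ha', b', hb', c', hc', d', hd', rfl⟩ := h'
  have h2 := (hP.mul_params ha hb hc hd ha' hb' hc' hd').2.1
  rw [hP.chi_resMat hb, hP.chi_resMat hb', ← ratChar_add,
    resMat_eq, resMat_eq, ← Matrix.map_mul, oBox_mul, ← resMat_eq, hP.chi_resMat h2, map_add,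
    map_add, map_add]
  refine ratChar_congr ?_
  rw [mul_comm b d', show ∀ x y z w : ℤ, x + y + z + w - (x + y) = z + w from fun x y z w => by ring]
  exact dvd_add (hP.ker a ha b' hb') (hP.ker d' hd' b hb)

theorem IsGood.chi_inv {M M' : Matrix (Fin 2) (Fin 2) (𝓞 L ⧸ P.lvlIdeal)}
    (h : M ∈ P.resSet) (h' : M' ∈ P.resSet) (e : M * M' = 1) :
    P.chi M' = conj (P.chi M) ∧ (P.chi M)⁻¹ = P.chi M' := by
  have h1 := hP.chi_mul h h'
  rw [e, hP.chi_one] at h1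
  obtain ⟨a, ha, b, hb, c, hc, d, hd, rfl⟩ := h
  have h2 : (P.chi (P.resMat a b c d))⁻¹ = P.chi M' := inv_eq_of_mul_eq_one_right h1.symm
  refine ⟨?_, h2⟩
  rw [← h2, hP.chi_resMat hb, ← ratChar_neg]
  exact inv_eq_of_mul_eq_one_right (by rw [← ratChar_add, add_neg_cancel, ratChar_zero])

theorem IsGood.near_lift {M : Matrix (Fin 2) (Fin 2) (𝓞 L ⧸ P.lvlIdeal)} (h : M ∈ P.resSet) :
    ∃ o : Matrix (Fin 2) (Fin 2) (𝓞 L), o.map (Ideal.Quotient.mk P.lvlIdeal) = M ∧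
      P.Near (P.lift M) o := by
  obtain ⟨a, ha, b, hb, c, hc, d, hd, rfl⟩ := h
  exact ⟨P.oBox a b c d, rfl, Box.near_lift hP.pos fun v hv => hP.det_notMem ha hd hv⟩

theorem IsGood.near_lift' {M : Matrix (Fin 2) (Fin 2) (𝓞 L ⧸ P.lvlIdeal)} (h : M ∈ P.resSet)
    {o : Matrix (Fin 2) (Fin 2) (𝓞 L)} (ho : o.map (Ideal.Quotient.mk P.lvlIdeal) = M) :
    P.Near (P.lift M) o := by
  obtain ⟨o', ho', h'⟩ := hP.near_lift h
  exact h'.congr hP.pos (ho'.trans ho.symm)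

end Box

end FermatAgent.LTG

end
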