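import Mathlib
import Fermat.Agent.LT.General.Level.Group

set_option autoImplicit false

/-!
# The projection to the character of a box group
-/

noncomputable section

open NumberField IsDedekindDomain Matrix
open scoped ComplexConjugate
open FermatAgent.LT (Cosets GAf galInt galGAf galCoset rightOp atPlace heckeOp finKer IsCosetOp
  IsHermOp levelGroup)

namespace FermatAgent.LTG.Box

variable {L : Type*} [Field L] [NumberField L] {P : Box L} (hP : P.IsGood)
include hP

theorem IsGood.rightOp_lift_mk {M : Matrix (Fin 2) (Fin 2) (𝓞 L ⧸ P.lvlIdeal)} (h : M ∈ P.resSet)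
    (f : Cosets P.lvlIdeal → ℂ) (g : GAf L) :
    rightOp P.lvlIdeal (P.lift M) f (g : Cosets P.lvlIdeal) =
      f ((g * P.lift M : GAf L) : Cosets P.lvlIdeal) := by
  obtain ⟨o, -, h'⟩ := hP.near_lift h
  exact h'.rightOp_mk hP.pos f g

theorem IsGood.op_mk (f : Cosets P.lvlIdeal → ℂ) (g : GAf L) :
    P.op f (g : Cosets P.lvlIdeal) = (Nat.card P.resSet : ℂ)⁻¹ *
      ∑ M ∈ (resSet_finite hP.pos).toFinset,
        (P.chi M)⁻¹ * f ((g * P.lift M : GAf L) : Cosets P.lvlIdeal) := by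
  rw [op, finsum_mem_eq_finite_toFinset_sum _ (resSet_finite hP.pos), LinearMap.smul_apply,
    Pi.smul_apply, LinearMap.sum_apply, Finset.sum_apply, smul_eq_mul]
  refine congrArg _ (Finset.sum_congr rfl fun M hM => ?_)
  rw [LinearMap.smul_apply, Pi.smul_apply, smul_eq_mul,
    hP.rightOp_lift_mk ((Set.Finite.mem_toFinset _).mp hM)]

theorem IsGood.card_ne_zero : (Nat.card P.resSet : ℂ) ≠ 0 := by
  have := (resSet_finite (P := P) hP.pos).to_subtype
  have : Nonempty P.resSet := ⟨⟨1, one_mem_resSet⟩⟩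
  exact Nat.cast_ne_zero.mpr Nat.card_pos.ne'

theorem IsGood.mk_lift_mul {M M' : Matrix (Fin 2) (Fin 2) (𝓞 L ⧸ P.lvlIdeal)} (h : M ∈ P.resSet)
    (h' : M' ∈ P.resSet) (g : GAf L) :
    ((g * P.lift M * P.lift M' : GAf L) : Cosets P.lvlIdeal) =
      ((g * P.lift (M * M') : GAf L) : Cosets P.lvlIdeal) := by
  obtain ⟨o, ho, h1⟩ := hP.near_lift h
  obtain ⟨o', ho', h2⟩ := hP.near_lift h'
  rw [mul_assoc]
  exact (h1.mul h2).mk_mul_eq hP.pos
    (hP.near_lift' (hP.mul_mem_resSet h h') (by rw [Matrix.map_mul, ho, ho'])) g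

theorem IsGood.mk_lift_one (g : GAf L) :
    ((g * P.lift 1 : GAf L) : Cosets P.lvlIdeal) = (g : Cosets P.lvlIdeal) := by
  have h := (hP.near_lift' one_mem_resSet (o := 1)
    (Matrix.map_one _ (map_zero _) (map_one _))).mk_mul_eq hP.pos Near.one g
  rwa [mul_one] at h

theorem IsGood.op_transform (f : Cosets P.lvlIdeal → ℂ)
    {M : Matrix (Fin 2) (Fin 2) (𝓞 L ⧸ P.lvlIdeal)} (hM : M ∈ P.resSet) (g : GAf L) :
    P.op f ((g * P.lift M : GAf L) : Cosets P.lvlIdeal) =
      P.chi M * P.op f (g : Cosets P.lvlIdeal) := by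
  have hfin := resSet_finite (P := P) hP.pos
  obtain ⟨hbij1, hbij2, hbij3⟩ := hP.mul_bijOn hM
  rw [hP.op_mk, hP.op_mk, ← mul_assoc, mul_comm (P.chi M), mul_assoc]
  refine congrArg _ ?_
  rw [Finset.mul_sum]
  refine Finset.sum_bij (fun N _ => M * N)
    (fun N hN => hfin.mem_toFinset.mpr (hbij1 (hfin.mem_toFinset.mp hN)))
    (fun N hN N' hN' e => hbij2 (hfin.mem_toFinset.mp hN) (hfin.mem_toFinset.mp hN') e)
    (fun N hN => by
      obtain ⟨N', hN', e⟩ := hbij3 (hfin.mem_toFinset.mp hN)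
      exact ⟨N', hfin.mem_toFinset.mpr hN', e⟩)
    (fun N hN => ?_)
  rw [hP.mk_lift_mul hM (hfin.mem_toFinset.mp hN), hP.chi_mul hM (hfin.mem_toFinset.mp hN), mul_inv,
    ← mul_assoc, ← mul_assoc, mul_inv_cancel₀ (hP.chi_ne_zero hM), one_mul]

/-- The fixed vectors of the projection. -/
theorem IsGood.op_eq_self_iff {f : Cosets P.lvlIdeal → ℂ} :
    P.op f = f ↔ ∀ M ∈ P.resSet, ∀ g : GAf L,
      f ((g * P.lift M : GAf L) : Cosets P.lvlIdeal) = P.chi M * f (g : Cosets P.lvlIdeal) := by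
  have hfin := resSet_finite (P := P) hP.pos
  refine ⟨fun hf M hM g => ?_, fun hf => funext fun q => ?_⟩
  · have h := hP.op_transform f hM g
    rwa [hf] at h
  · obtain ⟨g, rfl⟩ := QuotientGroup.mk_surjective q
    have h : ∀ M ∈ hfin.toFinset, (P.chi M)⁻¹ * f ((g * P.lift M : GAf L) : Cosets P.lvlIdeal) =
        f (g : Cosets P.lvlIdeal) := fun M hM => by
      rw [hf M (hfin.mem_toFinset.mp hM), ← mul_assoc,
        inv_mul_cancel₀ (hP.chi_ne_zero (hfin.mem_toFinset.mp hM)), one_mul]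
    rw [hP.op_mk, Finset.sum_congr rfl h, Finset.sum_const, nsmul_eq_mul,
      ← Nat.card_eq_card_finite_toFinset hfin, ← mul_assoc, inv_mul_cancel₀ hP.card_ne_zero, one_mul]

theorem IsGood.op_idem : P.op * P.op = P.op :=
  LinearMap.ext fun f => hP.op_eq_self_iff.mpr fun _ hM g => hP.op_transform f hM g

theorem IsGood.isCosetOp_op : IsCosetOp P.op := by
  refine LT.CO.isCosetOp_of_finRow (lvlIdeal_ne_bot P hP.pos) (fun x f q => ?_) ?_
  · obtain ⟨g, rfl⟩ := QuotientGroup.mk_surjective q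
    rw [MulAction.Quotient.smul_mk, smul_eq_mul, hP.op_mk, hP.op_mk]
    refine congrArg _ (Finset.sum_congr rfl fun M _ => ?_)
    rw [MulAction.Quotient.smul_mk, smul_eq_mul, mul_assoc]
  · rw [op, finsum_mem_eq_finite_toFinset_sum _ (resSet_finite hP.pos)]
    exact (LT.CO.finRow_sum _ _ fun M _ => (LT.CO.finRow_rightOp _).smul _).smul _

theorem IsGood.isHermOp_op : IsHermOp P.op := by
  classical
  have hfin := resSet_finite (P := P) hP.pos
  intro x y
  obtain ⟨g, rfl⟩ := QuotientGroup.mk_surjective x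
  obtain ⟨h, rfl⟩ := QuotientGroup.mk_surjective y
  simp only [finKer, hP.op_mk, map_mul, map_inv₀, map_natCast, map_sum]
  refine congrArg _ ?_
  choose! inv hinv1 hinv2 hinv3 using fun M (hM : M ∈ P.resSet) => hP.exists_inv hM
  have key : ∀ {M N}, M ∈ P.resSet → N ∈ P.resSet → M * N = 1 → ∀ {x y : GAf L},
      ((x * P.lift M : GAf L) : Cosets P.lvlIdeal) = (y : Cosets P.lvlIdeal) →
      ((y * P.lift N : GAf L) : Cosets P.lvlIdeal) = (x : Cosets P.lvlIdeal) := by
    intro M N hM hN e x y exy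
    obtain ⟨oN, hoN, hN'⟩ := hP.near_lift hN
    have h1 := hN'.rightOp_mk hP.pos (Pi.single (x : Cosets P.lvlIdeal) 1) (x * P.lift M)
    rw [exy, hN'.rightOp_mk hP.pos, hP.mk_lift_mul hM hN, e, hP.mk_lift_one, Pi.single_eq_same,
      Pi.single_apply] at h1
    by_contra hne
    rw [if_neg hne] at h1
    exact zero_ne_one h1
  refine Finset.sum_bij' (fun M _ => inv M) (fun M _ => inv M) ?_ ?_ ?_ ?_ ?_ <;>
    intro M hM <;> simp only [Set.Finite.mem_toFinset] at hM ⊢
  · exact hinv1 M hM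
  · exact hinv1 M hM
  · exact left_inv_eq_right_inv (hinv2 _ (hinv1 M hM) |> mul_eq_one_comm.mp) (hinv3 M hM)
  · exact left_inv_eq_right_inv (hinv2 _ (hinv1 M hM) |> mul_eq_one_comm.mp) (hinv3 M hM)
  · obtain ⟨h1, h2⟩ := hP.chi_inv hM (hinv1 M hM) (hinv2 M hM)
    rw [← h1, Pi.single_apply, Pi.single_apply]
    by_cases e : ((g * P.lift M : GAf L) : Cosets P.lvlIdeal) = (h : Cosets P.lvlIdeal)
    · rw [if_pos e, if_pos (key hM (hinv1 M hM) (hinv2 M hM) e), map_one]
    · rw [if_neg e, if_neg fun e' => e (key (hinv1 M hM) hM (hinv3 M hM) e'), map_zero, mul_zero]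

theorem IsGood.commute_op_heckeOp {v : HeightOneSpectrum (𝓞 L)} (hv : (P.N : 𝓞 L) ∉ v.asIdeal) :
    Commute P.op (heckeOp P.lvlIdeal v) := by
  have : Finite (𝓞 L ⧸ v.asIdeal) := Ideal.finiteQuotientOfFreeOfNeBot _ v.ne_bot
  let _ := Fintype.ofFinite (𝓞 L ⧸ v.asIdeal)
  have hne := lvlIdeal_ne_bot P hP.pos
  have hv' : ¬ P.lvlIdeal ≤ v.asIdeal := fun h => hv (h (Ideal.mem_span_singleton_self _))
  refine LinearMap.ext fun f => funext fun q => ?_
  obtain ⟨g, rfl⟩ := QuotientGroup.mk_surjective q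
  have key : ∀ M ∈ P.resSet, heckeOp P.lvlIdeal v f ((g * P.lift M : GAf L) : Cosets P.lvlIdeal) =
      ∑ i, f ((g * atPlace v (LT.CO.hMat v i) * P.lift M : GAf L) : Cosets P.lvlIdeal) := by
    intro M hM
    obtain ⟨o, -, hN⟩ := hP.near_lift hM
    -- a lift which is trivial at `v`
    set k := P.lift M * atPlace v (LT.CO.locMat v (P.lift M))⁻¹ with hk_def
    have hkv : LT.CO.locMat v k = 1 := by
      rw [hk_def, map_mul, LT.CO.locMat_atPlace_self, mul_inv_cancel]
    have hk : P.Near k o := fun w => by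
      rcases eq_or_ne w v with rfl | hw
      · refine ⟨by rw [hkv]; exact one_mem _, ?_⟩
        rw [lvl_eq_zero_of_notMem P hP.pos hv, hkv, Units.val_one, sub_eq_add_neg]
        exact LT.CO.smallM_one.add (smallM_oMat w o).neg
      · rw [hk_def, map_mul, LT.CO.locMat_atPlace_ne _ hw, mul_one]
        exact hN w
    have hcomm : ∀ W : GL (Fin 2) (v.adicCompletion L), k * atPlace v W = atPlace v W * k := by
      intro W
      refine LT.CO.ext_locMat fun w => ?_
      rw [map_mul (LT.CO.locMat w) k, map_mul (LT.CO.locMat w) (atPlace v W)]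
      rcases eq_or_ne w v with rfl | hw
      · rw [hkv, mul_one, one_mul]
      · rw [LT.CO.locMat_atPlace_ne _ hw, mul_one, one_mul]
    rw [hN.mk_mul_eq hP.pos hk, LT.CO.heckeOp_apply hne hv']
    refine Finset.sum_congr rfl fun i _ => ?_
    rw [hN.mk_mul_eq hP.pos hk, mul_assoc, hcomm, ← mul_assoc]
  rw [Module.End.mul_apply, Module.End.mul_apply, hP.op_mk, LT.CO.heckeOp_apply hne hv']
  simp only [hP.op_mk, Finset.mul_sum]
  rw [Finset.sum_comm (γ := Option (𝓞 L ⧸ v.asIdeal))]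
  refine Finset.sum_congr rfl fun M hM => ?_
  rw [key M ((Set.Finite.mem_toFinset _).mp hM), Finset.mul_sum, Finset.mul_sum]

theorem IsGood.op_galCoset (σ : L ≃+* L) (hA : ∀ a ∈ P.A, galInt σ a ∈ P.A)
    (hB : ∀ b ∈ P.B, galInt σ b ∈ P.B) (f : Cosets P.lvlIdeal → ℂ) :
    P.op (f ∘ galCoset σ) = P.op f ∘ galCoset σ := by
  have hfin := resSet_finite (P := P) hP.pos
  have hne := lvlIdeal_ne_bot P hP.pos
  have hmap : P.lvlIdeal.map (galInt σ) = P.lvlIdeal := by
    rw [lvlIdeal, Ideal.map_span, Set.image_singleton, map_natCast]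
  let e := (Ideal.quotientEquiv P.lvlIdeal P.lvlIdeal (galInt σ) hmap.symm).toRingHom.mapMatrix
    (m := Fin 2)
  have he : ∀ a b c d, e (P.resMat a b c d) =
      P.resMat (galInt σ a) (galInt σ b) (galInt σ c) (galInt σ d) := fun a b c d => by
    refine Matrix.ext fun i j => ?_
    fin_cases i <;> fin_cases j <;> simp [e, resMat, Ideal.quotientEquiv]
  have hmem : ∀ M ∈ P.resSet, e M ∈ P.resSet := by
    rintro _ ⟨a, ha, b, hb, c, hc, d, hd, rfl⟩
    exact ⟨_, hA a ha, _, hB b hb, _, hB c hc, _, hA d hd, he a b c d⟩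
  have hinj : Set.InjOn e P.resSet := fun x _ y _ hxy => Matrix.ext fun i j =>
    (Ideal.quotientEquiv P.lvlIdeal P.lvlIdeal (galInt σ) hmap.symm).injective
      (congrFun (congrFun hxy i) j)
  have hbij := (hfin.injOn_iff_bijOn_of_mapsTo hmem).mp hinj
  refine funext fun q => ?_
  obtain ⟨g, rfl⟩ := QuotientGroup.mk_surjective q
  rw [Function.comp_apply, LT.galCoset_mk hne hmap, hP.op_mk, hP.op_mk]
  refine congrArg _ (Finset.sum_bij (fun M _ => e M)
    (fun M hM => by simp only [Set.Finite.mem_toFinset] at hM ⊢; exact hmem M hM)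
    (fun M hM M' hM' h => by
      simp only [Set.Finite.mem_toFinset] at hM hM'
      exact hinj hM hM' h)
    (fun M hM => by
      simp only [Set.Finite.mem_toFinset] at hM
      obtain ⟨M', hM', h⟩ := hbij.surjOn hM
      exact ⟨M', (Set.Finite.mem_toFinset _).mpr hM', h⟩)
    (fun M hM => ?_))
  simp only [Set.Finite.mem_toFinset] at hM
  obtain ⟨a, ha, b, hb, c, hc, d, hd, rfl⟩ := hM
  have hM : P.resMat a b c d ∈ P.resSet := ⟨a, ha, b, hb, c, hc, d, hd, rfl⟩
  rw [he, hP.chi_resMat hb, hP.chi_resMat (hB b hb), Function.comp_apply, LT.galCoset_mk hne hmap,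
    map_mul, show Algebra.trace ℤ (𝓞 L) (galInt σ b) = Algebra.trace ℤ (𝓞 L) b from
      Algebra.trace_eq_of_algEquiv (galInt σ).toIntAlgEquiv b]
  refine congrArg (_ * f ·) ?_
  refine ((hP.near_lift' hM (o := P.oBox a b c d) rfl).galGAf hP.pos σ).mk_mul_eq hP.pos
    (hP.near_lift' (he a b c d ▸ hmem _ hM) ?_) _
  refine Matrix.ext fun i j => ?_
  fin_cases i <;> fin_cases j <;> simp [oBox, resMat]

end FermatAgent.LTG.Box

end
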