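import Mathlib
import Fermat.Agent.LT.General.Level.Op
import Fermat.Agent.LT.General.Level.Good
import Fermat.Agent.LT.General.Level.Exists
import Fermat.Agent.LT.General.Geom.Facts

set_option autoImplicit false

/-!
# The projections of the levels
-/

noncomputable section

open NumberField IsDedekindDomain
open FermatAgent.LT (Cosets GAf galInt galCoset heckeOp IsCosetOp IsHermOp)

namespace FermatAgent.LTG

local notation "Qb" => AlgebraicClosure ℚ

namespace Setup.Level

variable {S : Setup} (D : S.Level) (σ : S.F ≃+* S.F)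

instance fact_levelIdeal_ne_bot (L : IntermediateField ℚ Qb) [NumberField L] :
    Fact (D.levelIdeal L ≠ ⊥) := ⟨D.levelIdeal_ne_bot L⟩

theorem lvl_notMem {L : IntermediateField ℚ Qb} [NumberField L] {w : HeightOneSpectrum (𝓞 L)}
    (hw : (S.m : 𝓞 L) ∉ w.asIdeal) : (D.lvl : 𝓞 L) ∉ w.asIdeal := fun h =>
  hw ((D.levelIdeal_le_iff L w).mp (by rwa [levelIdeal, Ideal.span_singleton_le_iff_mem]))

/-! ### On `F` -/

theorem isCosetOp_levelOpF : IsCosetOp (D.levelOpF σ) := (D.isGood_boxF σ).isCosetOp_op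

theorem isHermOp_levelOpF : IsHermOp (D.levelOpF σ) := (D.isGood_boxF σ).isHermOp_op

theorem levelOpF_idem : D.levelOpF σ * D.levelOpF σ = D.levelOpF σ := (D.isGood_boxF σ).op_idem

theorem commute_levelOpF {w : HeightOneSpectrum (𝓞 S.F)} (hw : (S.m : 𝓞 S.F) ∉ w.asIdeal) :
    Commute (D.levelOpF σ) (heckeOp (D.levelIdeal S.F) w) :=
  (D.isGood_boxF σ).commute_op_heckeOp (D.lvl_notMem hw)

theorem levelOpF_eq_self_iff {f : Cosets (D.levelIdeal S.F) → ℂ} :
    D.levelOpF σ f = f ↔ ∀ M ∈ (D.boxF σ).resSet, ∀ g : GAf S.F,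
      f ((g * (D.boxF σ).lift M : GAf S.F) : Cosets (D.levelIdeal S.F)) =
        (D.boxF σ).chi M * f (g : Cosets (D.levelIdeal S.F)) :=
  (D.isGood_boxF σ).op_eq_self_iff

variable {σ}

/-- The projection commutes with the automorphism. -/
theorem levelOpF_galCoset (hσ : S.IsGalGen σ) (f : Cosets (D.levelIdeal S.F) → ℂ) :
    D.levelOpF σ (f ∘ galCoset σ) = D.levelOpF σ f ∘ galCoset σ :=
  (D.isGood_boxF σ).op_galCoset σ (fun _ ha => D.boxAF_galInt hσ ha)
    (fun _ hb => IsGalGen.galInt_mem_boxBF hσ hb) f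

/-! ### On `K` -/

theorem isCosetOp_levelOpK : IsCosetOp D.levelOpK := D.isGood_boxK.isCosetOp_op

theorem isHermOp_levelOpK : IsHermOp D.levelOpK := D.isGood_boxK.isHermOp_op

theorem levelOpK_idem : D.levelOpK * D.levelOpK = D.levelOpK := D.isGood_boxK.op_idem

theorem commute_levelOpK {v : HeightOneSpectrum (𝓞 S.K)} (hv : (S.m : 𝓞 S.K) ∉ v.asIdeal) :
    Commute D.levelOpK (heckeOp (D.levelIdeal S.K) v) :=
  D.isGood_boxK.commute_op_heckeOp (D.lvl_notMem hv)

theorem levelOpK_eq_self_iff {f : Cosets (D.levelIdeal S.K) → ℂ} :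
    D.levelOpK f = f ↔ ∀ M ∈ D.boxK.resSet, ∀ g : GAf S.K,
      f ((g * D.boxK.lift M : GAf S.K) : Cosets (D.levelIdeal S.K)) =
        D.boxK.chi M * f (g : Cosets (D.levelIdeal S.K)) :=
  D.isGood_boxK.op_eq_self_iff

end Setup.Level

end FermatAgent.LTG

end
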