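import Mathlib
import Fermat.Agent.LT.General.Level.Op

set_option autoImplicit false

/-!
# Splitting the projection of a box along idempotents modulo the level
-/

noncomputable section

open NumberField IsDedekindDomain Matrix WithZero
open FermatAgent.LT (Cosets GAf rightOp loc)
open FermatAgent.LT.CO (lvl)

namespace FermatAgent.LTG.Box

variable {L : Type*} [Field L] [NumberField L] (P : Box L)

/-- An idempotent modulo the level. -/
def IsIdem (e : 𝓞 L) : Prop := e * e - e ∈ P.lvlIdeal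

/-- The boxes are stable under the idempotents. -/
structure IsSplit : Prop extends P.IsGood where
  idem_A : ∀ e, P.IsIdem e → ∀ a ∈ P.A, e * a ∈ P.A
  idem_B : ∀ e, P.IsIdem e → ∀ b ∈ P.B, e * b ∈ P.B

/-- The part of a residual matrix along an idempotent. -/
def theta (e : 𝓞 L) (M : Matrix (Fin 2) (Fin 2) (𝓞 L ⧸ P.lvlIdeal)) :
    Matrix (Fin 2) (Fin 2) (𝓞 L ⧸ P.lvlIdeal) :=
  1 + Ideal.Quotient.mk P.lvlIdeal e • (M - 1)

/-- The part of the box group along an idempotent. -/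
def resPart (e : 𝓞 L) : Set (Matrix (Fin 2) (Fin 2) (𝓞 L ⧸ P.lvlIdeal)) := P.theta e '' P.resSet

/-- The projection of the part along an idempotent. -/
def opPart (e : 𝓞 L) : Module.End ℂ (Cosets P.lvlIdeal → ℂ) :=
  (Nat.card (P.resPart e) : ℂ)⁻¹ • ∑ᶠ M ∈ P.resPart e, (P.chi M)⁻¹ • rightOp P.lvlIdeal (P.lift M)

variable {P}

theorem IsIdem.mk_mul {e : 𝓞 L} (he : P.IsIdem e) :
    Ideal.Quotient.mk P.lvlIdeal e * Ideal.Quotient.mk P.lvlIdeal e =
      Ideal.Quotient.mk P.lvlIdeal e := by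
  rw [← map_mul]
  exact Ideal.Quotient.eq.mpr he

theorem mem_lvlIdeal_iff (hN : 0 < P.N) {x : 𝓞 L} :
    x ∈ P.lvlIdeal ↔ ∀ v, Valued.v (loc v (x : L)) ≤ exp (-(lvl P.lvlIdeal v : ℤ)) := by
  refine ⟨fun h v => valued_le_of_mem P hN h v, fun h => ?_⟩
  obtain ⟨z, hz⟩ := HeightOneSpectrum.mem_integers_of_valuation_le_one (R := 𝓞 L) L
    ((x : L) / ((P.N : 𝓞 L) : L)) fun v => by
      rw [← LT.valued_loc, map_div₀, map_div₀, valued_natCast_N P hN,
        div_le_one₀ (zero_lt_iff.mpr exp_ne_zero)]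
      exact h v
  refine Ideal.mem_span_singleton.mpr ⟨z, RingOfIntegers.ext ?_⟩
  simp only [RingOfIntegers.coe_eq_algebraMap, map_mul] at hz ⊢
  rw [hz, mul_div_cancel₀]
  exact fun h0 => natCast_N_ne_zero P hN (RingOfIntegers.ext (h0.trans (map_zero _).symm))

/-- An idempotent is `0` or `1` modulo the level at each place. -/
theorem IsIdem.dichotomy (hN : 0 < P.N) {e : 𝓞 L} (he : P.IsIdem e)
    (v : HeightOneSpectrum (𝓞 L)) :
    Valued.v (loc v (e : L)) ≤ exp (-(lvl P.lvlIdeal v : ℤ)) ∨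
      Valued.v (loc v (e : L) - 1) ≤ exp (-(lvl P.lvlIdeal v : ℤ)) := by
  have h := valued_le_of_mem P hN he v
  rw [show ((e * e - e : 𝓞 L) : L) = (e : L) * ((e : L) - 1) by push_cast; ring, map_mul, map_mul,
    map_sub, map_one] at h
  rcases lt_or_eq_of_le (LT.CO.valued_int_le_one (v := v) e) with h1 | h1
  · left
    rwa [show Valued.v (loc v (e : L) - 1) = 1 by
      rw [← Valuation.map_neg, neg_sub, Valuation.map_one_sub_of_lt _ h1], mul_one] at h
  · right
    rwa [h1, one_mul] at h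

theorem theta_mul {e : 𝓞 L} (he : P.IsIdem e)
    (M M' : Matrix (Fin 2) (Fin 2) (𝓞 L ⧸ P.lvlIdeal)) :
    P.theta e (M * M') = P.theta e M * P.theta e M' := by
  rw [theta, theta, theta, show M * M' - 1 = (M - 1) + (M' - 1) + (M - 1) * (M' - 1) by noncomm_ring]
  simp only [smul_add, add_mul, one_mul, mul_add, mul_one, Matrix.smul_mul, Matrix.mul_smul,
    smul_smul, he.mk_mul]
  abel

theorem theta_theta (e e' : 𝓞 L) (M : Matrix (Fin 2) (Fin 2) (𝓞 L ⧸ P.lvlIdeal)) :
    P.theta e (P.theta e' M) = P.theta (e * e') M := by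
  simp only [theta, add_sub_cancel_left, smul_smul, map_mul]

theorem theta_congr {e e' : 𝓞 L} (h : e - e' ∈ P.lvlIdeal)
    (M : Matrix (Fin 2) (Fin 2) (𝓞 L ⧸ P.lvlIdeal)) : P.theta e M = P.theta e' M := by
  rw [theta, theta, Ideal.Quotient.eq.mpr h]

theorem theta_zero (M : Matrix (Fin 2) (Fin 2) (𝓞 L ⧸ P.lvlIdeal)) : P.theta 0 M = 1 := by
  simp [theta]

theorem theta_one (M : Matrix (Fin 2) (Fin 2) (𝓞 L ⧸ P.lvlIdeal)) : P.theta 1 M = M := by
  simp [theta]

theorem theta_add {e e' : 𝓞 L} (h : e * e' ∈ P.lvlIdeal)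
    (M : Matrix (Fin 2) (Fin 2) (𝓞 L ⧸ P.lvlIdeal)) :
    P.theta (e + e') M = P.theta e M * P.theta e' M := by
  simp only [theta, map_add, add_smul, add_mul, one_mul, mul_add, mul_one, Matrix.smul_mul,
    Matrix.mul_smul, smul_smul, ← map_mul]
  rw [mul_comm e' e, Ideal.Quotient.eq_zero_iff_mem.mpr h, zero_smul]
  abel

theorem theta_resMat (e a b c d : 𝓞 L) :
    P.theta e (P.resMat a b c d) = P.resMat (e * a) (e * b) (e * c) (e * d) := by
  refine Matrix.ext fun i j => ?_
  fin_cases i <;> fin_cases j <;> simp [theta, resMat]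
  all_goals ring

theorem IsIdem.add {e e' : 𝓞 L} (he : P.IsIdem e) (he' : P.IsIdem e') (h : e * e' ∈ P.lvlIdeal) :
    P.IsIdem (e + e') := by
  rw [IsIdem, show (e + e') * (e + e') - (e + e') = (e * e - e) + (e' * e' - e') + (e * e' + e * e')
    by ring]
  exact add_mem (add_mem he he') (add_mem h h)

theorem resPart_one : P.resPart 1 = P.resSet := by
  simp [resPart, funext (theta_one (P := P))]

theorem one_mem_resPart (e : 𝓞 L) :
    (1 : Matrix (Fin 2) (Fin 2) (𝓞 L ⧸ P.lvlIdeal)) ∈ P.resPart e :=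
  ⟨1, one_mem_resSet, by simp [theta]⟩

theorem theta_fix {e : 𝓞 L} (he : P.IsIdem e)
    {M : Matrix (Fin 2) (Fin 2) (𝓞 L ⧸ P.lvlIdeal)} (hM : M ∈ P.resPart e) :
    P.theta e M = M := by
  obtain ⟨N, -, rfl⟩ := hM
  rw [theta_theta, theta_congr he]

theorem opPart_congr {e e' : 𝓞 L} (h : e - e' ∈ P.lvlIdeal) :
    P.opPart e = P.opPart e' := by
  have hr : P.resPart e = P.resPart e' := Set.image_congr fun M _ => theta_congr h M
  rw [opPart, opPart, hr]

theorem opPart_one : P.opPart 1 = P.op := by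
  rw [opPart, resPart_one, op]

variable (hP : P.IsSplit)
include hP

theorem IsSplit.theta_mem {e : 𝓞 L} (he : P.IsIdem e)
    {M : Matrix (Fin 2) (Fin 2) (𝓞 L ⧸ P.lvlIdeal)} (hM : M ∈ P.resSet) :
    P.theta e M ∈ P.resSet := by
  obtain ⟨a, ha, b, hb, c, hc, d, hd, rfl⟩ := hM
  exact ⟨_, hP.idem_A e he a ha, _, hP.idem_B e he b hb, _, hP.idem_B e he c hc, _,
    hP.idem_A e he d hd, theta_resMat e a b c d⟩

theorem IsSplit.resPart_subset {e : 𝓞 L} (he : P.IsIdem e) : P.resPart e ⊆ P.resSet := by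
  rintro _ ⟨M, hM, rfl⟩
  exact hP.theta_mem he hM

theorem IsSplit.resPart_finite {e : 𝓞 L} : (P.resPart e).Finite :=
  (resSet_finite hP.pos).image _

theorem IsSplit.card_part_ne_zero (e : 𝓞 L) : (Nat.card (P.resPart e) : ℂ) ≠ 0 := by
  have := (hP.resPart_finite (e := e)).to_subtype
  have : Nonempty (P.resPart e) := ⟨⟨1, one_mem_resPart e⟩⟩
  exact Nat.cast_ne_zero.mpr Nat.card_pos.ne'

theorem IsSplit.opPart_mk {e : 𝓞 L} (he : P.IsIdem e) (f : Cosets P.lvlIdeal → ℂ) (g : GAf L) :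
    P.opPart e f (g : Cosets P.lvlIdeal) = (Nat.card (P.resPart e) : ℂ)⁻¹ *
      ∑ M ∈ (hP.resPart_finite (e := e)).toFinset,
        (P.chi M)⁻¹ * f ((g * P.lift M : GAf L) : Cosets P.lvlIdeal) := by
  rw [opPart, finsum_mem_eq_finite_toFinset_sum _ hP.resPart_finite, LinearMap.smul_apply,
    Pi.smul_apply, LinearMap.sum_apply, Finset.sum_apply, smul_eq_mul]
  refine congrArg _ (Finset.sum_congr rfl fun M hM => ?_)
  rw [LinearMap.smul_apply, Pi.smul_apply, smul_eq_mul,
    hP.toIsGood.rightOp_lift_mk (hP.resPart_subset he ((Set.Finite.mem_toFinset _).mp hM))]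

theorem IsSplit.opPart_zero : P.opPart 0 = 1 := by
  classical
  have hr : P.resPart 0 = {1} := by
    refine Set.eq_singleton_iff_unique_mem.mpr ⟨one_mem_resPart 0, ?_⟩
    rintro _ ⟨M, -, rfl⟩
    exact theta_zero M
  refine LinearMap.ext fun f => funext fun q => ?_
  obtain ⟨g, rfl⟩ := QuotientGroup.mk_surjective q
  rw [opPart, hr]
  simp [hP.toIsGood.chi_one, hP.toIsGood.rightOp_lift_mk one_mem_resSet, hP.toIsGood.mk_lift_one]

theorem IsSplit.opPart_mul {e e' : 𝓞 L} (he : P.IsIdem e) (he' : P.IsIdem e')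
    (h : e * e' ∈ P.lvlIdeal) : P.opPart e * P.opPart e' = P.opPart (e + e') := by
  have hb : Set.BijOn (fun p : _ × _ => p.1 * p.2) (P.resPart e ×ˢ P.resPart e')
      (P.resPart (e + e')) := by
    refine ⟨?_, ?_, ?_⟩
    · rintro ⟨_, _⟩ ⟨⟨M, hM, rfl⟩, ⟨M', hM', rfl⟩⟩
      refine ⟨P.theta e M * P.theta e' M', hP.toIsGood.mul_mem_resSet (hP.theta_mem he hM)
        (hP.theta_mem he' hM'), ?_⟩
      rw [theta_mul (he.add he' h), theta_theta, theta_theta]
      refine congrArg₂ _ (theta_congr ?_ M) (theta_congr ?_ M')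
      · rw [show (e + e') * e - e = (e * e - e) + e * e' by ring]
        exact add_mem he h
      · rw [show (e + e') * e' - e' = (e' * e' - e') + e * e' by ring]
        exact add_mem he' h
    · have key : ∀ x ∈ P.resPart e, ∀ y ∈ P.resPart e',
          P.theta e (x * y) = x ∧ P.theta e' (x * y) = y := by
        rintro _ ⟨M, hM, rfl⟩ _ ⟨M', hM', rfl⟩
        refine ⟨?_, ?_⟩
        · rw [theta_mul he, theta_theta, theta_theta, theta_congr he,
            theta_congr (e := e * e') (e' := 0) (by rwa [sub_zero]), theta_zero, mul_one]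
        · rw [theta_mul he', theta_theta, theta_theta,
            theta_congr (e := e' * e) (e' := 0) (by rwa [sub_zero, mul_comm]), theta_zero, one_mul,
            theta_congr he']
      rintro ⟨x, y⟩ ⟨hx, hy⟩ ⟨x', y'⟩ ⟨hx', hy'⟩ hxy
      simp only at hxy
      refine Prod.ext ?_ ?_
      · show x = x'
        rw [← (key x hx y hy).1, hxy, (key x' hx' y' hy').1]
      · show y = y'
        rw [← (key x hx y hy).2, hxy, (key x' hx' y' hy').2]
    · rintro _ ⟨M, hM, rfl⟩
      exact ⟨(P.theta e M, P.theta e' M), ⟨⟨M, hM, rfl⟩, ⟨M, hM, rfl⟩⟩, (theta_add h M).symm⟩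
  have hcard : (Nat.card (P.resPart (e + e')) : ℂ) =
      (Nat.card (P.resPart e) : ℂ) * (Nat.card (P.resPart e') : ℂ) := by
    rw [← Nat.cast_mul, ← Nat.card_prod, ← Nat.card_congr (Equiv.Set.prod _ _),
      Nat.card_congr (hb.equiv _)]
  refine LinearMap.ext fun f => funext fun q => ?_
  obtain ⟨g, rfl⟩ := QuotientGroup.mk_surjective q
  rw [Module.End.mul_apply, hP.opPart_mk he, hP.opPart_mk (he.add he' h), hcard, mul_inv, mul_assoc]
  refine congrArg _ ?_
  simp only [hP.opPart_mk he', Finset.mul_sum, ← Finset.sum_product']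
  refine Finset.sum_bij (fun p _ => p.1 * p.2) ?_ ?_ ?_ ?_
  · intro p hp
    simp only [Finset.mem_product, Set.Finite.mem_toFinset] at hp ⊢
    exact hb.mapsTo hp
  · intro p hp p' hp' hpp
    simp only [Finset.mem_product, Set.Finite.mem_toFinset] at hp hp'
    exact hb.injOn hp hp' hpp
  · intro M hM
    simp only [Set.Finite.mem_toFinset] at hM
    obtain ⟨p, hp, rfl⟩ := hb.surjOn hM
    exact ⟨p, by simpa using hp, rfl⟩
  · intro p hp
    simp only [Finset.mem_product, Set.Finite.mem_toFinset] at hp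
    have h1 := hP.resPart_subset he hp.1
    have h2 := hP.resPart_subset he' hp.2
    rw [hP.toIsGood.mk_lift_mul h1 h2, hP.toIsGood.chi_mul h1 h2, mul_inv]
    ring

theorem IsSplit.opPart_list_prod {ι : Type*} (e : ι → 𝓞 L) (he : ∀ i, P.IsIdem (e i))
    (l : List ι) (hl : l.Pairwise fun i j => e i * e j ∈ P.lvlIdeal) :
    (l.map fun i => P.opPart (e i)).prod = P.opPart (l.map e).sum ∧
      P.IsIdem (l.map e).sum := by
  induction l with
  | nil => simpa [IsIdem] using hP.opPart_zero.symm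
  | cons i l ih =>
    rw [List.pairwise_cons] at hl
    obtain ⟨h1, h2⟩ := ih hl.2
    have h : e i * (l.map e).sum ∈ P.lvlIdeal := by
      rw [← List.sum_map_mul_left]
      refine list_sum_mem fun x hx => ?_
      obtain ⟨y, hy, rfl⟩ := List.mem_map.mp hx
      exact hl.1 y hy
    simp only [List.map_cons, List.prod_cons, List.sum_cons]
    exact ⟨by rw [h1, hP.opPart_mul (he i) h2 h], (he i).add h2 h⟩

end FermatAgent.LTG.Box

end
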