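import Mathlib
import Fermat.Agent.LT.General.Level.Split
import Fermat.Agent.LT.Descent.Geom.Factor
import Fermat.Agent.LT.Descent.Geom.Local.LevelKer
import Fermat.Agent.LT.Descent.Geom.Local.OpBdd

set_option autoImplicit false

/-!
# The projection of a box as a product of operators at the places of the level
-/

noncomputable section

open NumberField IsDedekindDomain Matrix WithZero
open FermatAgent.LT (Cosets GAf LCos GLv rightOp loc atPlace compAt locSum locInt lKer liftAt
  liftProd opPair)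
open FermatAgent.LT.CO (lvl SmallM)

namespace FermatAgent.LTG.Box

variable {L : Type*} [Field L] [NumberField L] (P : Box L)

/-- `1` modulo the level at `v`, `0` modulo the level at the other places. -/
def IsPlaceIdem (v : HeightOneSpectrum (𝓞 L)) (e : 𝓞 L) : Prop :=
  Valued.v (loc v (e : L) - 1) ≤ exp (-(lvl P.lvlIdeal v : ℤ)) ∧
    ∀ u, u ≠ v → Valued.v (loc u (e : L)) ≤ exp (-(lvl P.lvlIdeal u : ℤ))

open Classical in
/-- The idempotent of a place. -/
def placeIdem (v : HeightOneSpectrum (𝓞 L)) : 𝓞 L :=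
  if h : ∃ e, P.IsPlaceIdem v e then h.choose else 0

/-- The box group at a place. -/
def locRes (v : HeightOneSpectrum (𝓞 L)) : Set (Matrix (Fin 2) (Fin 2) (𝓞 L ⧸ P.lvlIdeal)) :=
  P.resPart (P.placeIdem v)

instance finite_locRes [hN : Fact (0 < P.N)] (v : HeightOneSpectrum (𝓞 L)) : Finite (P.locRes v) :=
  ((resSet_finite hN.out).image _).to_subtype

open Classical in
/-- The local factor of the projection of a box. -/
def locOp (v : HeightOneSpectrum (𝓞 L)) : Module.End ℂ (LCos P.lvlIdeal v → ℂ) :=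
  if hN : 0 < P.N then
    haveI : Fact (0 < P.N) := ⟨hN⟩
    locSum P.lvlIdeal v (fun M : P.locRes v => (Nat.card (P.locRes v) : ℂ)⁻¹ * (P.chi M.1)⁻¹)
      (fun M : P.locRes v => compAt v (P.lift M.1))
  else 1

variable {P}

theorem exists_isPlaceIdem (hN : 0 < P.N) (v : HeightOneSpectrum (𝓞 L)) :
    ∃ e, P.IsPlaceIdem v e := by
  classical
  have hfin := Filter.eventually_cofinite.mp (LT.CO.eventually_lvl (lvlIdeal_ne_bot P hN))
  obtain ⟨e, he⟩ := LT.exists_int_close_finset (insert v hfin.toFinset)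
    (fun u => if u = v then 1 else 0) (fun u => lvl P.lvlIdeal u) fun u _ => by
      split_ifs <;> simp
  refine ⟨e, ?_, fun u hu => ?_⟩
  · have h := he v (Finset.mem_insert_self _ _)
    rw [if_pos rfl, Valuation.map_sub_swap] at h
    exact h
  · by_cases h0 : lvl P.lvlIdeal u = 0
    · rw [h0, Nat.cast_zero, neg_zero, exp_zero]
      exact LT.CO.valued_int_le_one e
    · simpa [hu] using he u (Finset.mem_insert_of_mem (by simpa using h0))

theorem placeIdem_spec (hN : 0 < P.N) (v : HeightOneSpectrum (𝓞 L)) :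
    P.IsPlaceIdem v (P.placeIdem v) := by
  rw [placeIdem, dif_pos (exists_isPlaceIdem hN v)]
  exact (exists_isPlaceIdem hN v).choose_spec

theorem IsPlaceIdem.isIdem (hN : 0 < P.N) {v : HeightOneSpectrum (𝓞 L)} {e : 𝓞 L}
    (he : P.IsPlaceIdem v e) : P.IsIdem e := by
  refine (mem_lvlIdeal_iff hN).mpr fun u => ?_
  rw [show ((e * e - e : 𝓞 L) : L) = (e : L) * ((e : L) - 1) by push_cast; ring, map_mul, map_mul,
    map_sub, map_one]
  rcases eq_or_ne u v with rfl | hu
  · exact mul_le_of_le_one_of_le (LT.CO.valued_int_le_one e) he.1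
  · refine mul_le_of_le_of_le_one (he.2 u hu) ((Valuation.map_sub _ _ _).trans (max_le ?_ ?_))
    · exact LT.CO.valued_int_le_one e
    · rw [map_one]

theorem IsPlaceIdem.orth (hN : 0 < P.N) {v v' : HeightOneSpectrum (𝓞 L)} {e e' : 𝓞 L}
    (he : P.IsPlaceIdem v e) (he' : P.IsPlaceIdem v' e') (h : v ≠ v') : e * e' ∈ P.lvlIdeal := by
  refine (mem_lvlIdeal_iff hN).mpr fun u => ?_
  rw [show ((e * e' : 𝓞 L) : L) = (e : L) * (e' : L) by push_cast; rfl, map_mul, map_mul]
  rcases eq_or_ne u v with rfl | hu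
  · exact mul_le_of_le_one_of_le (LT.CO.valued_int_le_one e) (he'.2 u h)
  · exact mul_le_of_le_of_le_one (he.2 u hu) (LT.CO.valued_int_le_one e')

theorem sum_placeIdem (hN : 0 < P.N) (s : Finset (HeightOneSpectrum (𝓞 L)))
    (hs : ∀ v, (P.N : 𝓞 L) ∈ v.asIdeal → v ∈ s) :
    ∑ v ∈ s, P.placeIdem v - 1 ∈ P.lvlIdeal := by
  classical
  refine (mem_lvlIdeal_iff hN).mpr fun u => ?_
  by_cases hu : u ∈ s
  · rw [← Finset.sum_erase_add _ _ hu, add_sub_assoc, RingOfIntegers.coe_eq_algebraMap, map_add,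
      map_add, map_sub, map_one, map_sub, map_one, map_sum, map_sum,
      ← RingOfIntegers.coe_eq_algebraMap]
    refine (Valuation.map_add _ _ _).trans (max_le ?_ (placeIdem_spec hN u).1)
    refine Valuation.map_sum_le _ fun w hw => ?_
    exact (placeIdem_spec hN w).2 u (Finset.ne_of_mem_erase hw).symm
  · rw [lvl_eq_zero_of_notMem P hN (fun h => hu (hs u h)), Nat.cast_zero, neg_zero, exp_zero]
    exact LT.CO.valued_int_le_one _

/-- The two congruence subgroups at a place agree. -/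
theorem locCongr_eq (hN : 0 < P.N) (v : HeightOneSpectrum (𝓞 L)) :
    LT.locCongr P.lvlIdeal v = LT.CO.locCongr v (lvl P.lvlIdeal v) := by
  refine le_antisymm (fun g hg => ?_) fun g hg => ?_
  · have key : ∀ h ∈ LT.locCongr P.lvlIdeal v, SmallM v (lvl P.lvlIdeal v) (h.val - 1) := by
      rintro _ ⟨k, hk, rfl⟩ i j
      have h := LT.mem_ker_mk_iff.mp hk i j
      rw [lvlIdeal, Ideal.map_span, Set.image_singleton, Ideal.mem_span_singleton] at h
      obtain ⟨y, hy⟩ := h
      rw [Matrix.sub_apply, show (Matrix.GeneralLinearGroup.map (v.adicCompletionIntegers L).toSubring.subtype k :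
          GLv v).val i j - (1 : Matrix (Fin 2) (Fin 2) (v.adicCompletion L)) i j =
          ((k.val i j - if i = j then 1 else 0 : v.adicCompletionIntegers L) :
            v.adicCompletion L) by
        rw [Matrix.one_apply]; split_ifs <;> rfl, hy]
      show Valued.v (loc v ((P.N : 𝓞 L) : L) * (y : v.adicCompletion L)) ≤ _
      rw [map_mul, valued_natCast_N P hN]
      exact mul_le_of_le_one_right' y.2
    exact ⟨key g hg, key _ (inv_mem hg)⟩
  · have h := LT.compAt_congr v (LT.CO.atPlace_mem_congr (lvlIdeal_ne_bot P hN) hg)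
    rwa [LT.compAt_atPlace_self] at h

theorem compAt_eq_locMat (v : HeightOneSpectrum (𝓞 L)) (g : GAf L) :
    compAt v g = LT.CO.locMat v g := rfl

theorem Near.mem_locInt {g : GAf L} {o : Matrix (Fin 2) (Fin 2) (𝓞 L)} (h : P.Near g o)
    (v : HeightOneSpectrum (𝓞 L)) : compAt v g ∈ locInt v :=
  LT.mem_locInt_of_entries _ (fun i j => (LT.CO.smallM_of_mem (h v).1).le_one i j)
    (LT.CO.valued_det_eq_one (h v).1)

variable (hP : P.IsSplit)
include hP

theorem IsSplit.locRes_subset (v : HeightOneSpectrum (𝓞 L)) : P.locRes v ⊆ P.resSet :=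
  hP.resPart_subset ((placeIdem_spec hP.pos v).isIdem hP.pos)

theorem IsSplit.locOp_eq (v : HeightOneSpectrum (𝓞 L)) :
    haveI : Fact (0 < P.N) := ⟨hP.pos⟩
    P.locOp v = locSum P.lvlIdeal v
      (fun M : P.locRes v => (Nat.card (P.locRes v) : ℂ)⁻¹ * (P.chi M.1)⁻¹)
      (fun M : P.locRes v => compAt v (P.lift M.1)) := by
  rw [locOp, dif_pos hP.pos]

theorem IsSplit.lift_mem_locInt {v : HeightOneSpectrum (𝓞 L)}
    {M : Matrix (Fin 2) (Fin 2) (𝓞 L ⧸ P.lvlIdeal)} (hM : M ∈ P.resSet) :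
    compAt v (P.lift M) ∈ locInt v := by
  obtain ⟨o, -, h⟩ := hP.toIsGood.near_lift hM
  exact h.mem_locInt v

/-- A lift of a residual matrix of one place may be taken trivial at the other places. -/
theorem IsSplit.near_atPlace {v : HeightOneSpectrum (𝓞 L)}
    {M : Matrix (Fin 2) (Fin 2) (𝓞 L ⧸ P.lvlIdeal)} (hM : M ∈ P.locRes v) :
    ∃ o : Matrix (Fin 2) (Fin 2) (𝓞 L), o.map (Ideal.Quotient.mk P.lvlIdeal) = M ∧
      P.Near (P.lift M) o ∧ P.Near (atPlace v (compAt v (P.lift M))) o := by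
  obtain ⟨_, ⟨a, ha, b, hb, c, hc, d, hd, rfl⟩, rfl⟩ := hM
  have hspec := placeIdem_spec hP.pos v
  set e := P.placeIdem v
  have he := hspec.isIdem hP.pos
  have hmem := hP.theta_mem he (M := P.resMat a b c d) ⟨a, ha, b, hb, c, hc, d, hd, rfl⟩
  have ho : (P.oBox (e * a) (e * b) (e * c) (e * d)).map (Ideal.Quotient.mk P.lvlIdeal) =
      P.theta e (P.resMat a b c d) := by rw [theta_resMat]; rfl
  have hn := hP.toIsGood.near_lift' hmem ho
  refine ⟨_, ho, hn, fun u => ?_⟩
  rcases eq_or_ne u v with rfl | hu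
  · rw [compAt_eq_locMat, LT.CO.locMat_atPlace_self]
    exact hn u
  · rw [LT.CO.locMat_atPlace_ne _ hu]
    refine ⟨one_mem _, fun i j => ?_⟩
    have hsm : ∀ x : 𝓞 L, Valued.v (loc u ((e * x : 𝓞 L) : L)) ≤
        exp (-(lvl P.lvlIdeal u : ℤ)) := fun x => by
      rw [show ((e * x : 𝓞 L) : L) = (e : L) * (x : L) by push_cast; rfl, map_mul, map_mul]
      exact mul_le_of_le_of_le_one (hspec.2 u hu) (LT.CO.valued_int_le_one x)
    rw [Units.val_one, Matrix.sub_apply, oMat_apply]
    fin_cases i <;> fin_cases j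
    · simpa [oBox, Valuation.map_neg] using hsm a
    · simpa [oBox, Valuation.map_neg] using hsm b
    · simpa [oBox, Valuation.map_neg, mul_left_comm] using hsm ((P.M₂ : 𝓞 L) * c)
    · simpa [oBox, Valuation.map_neg] using hsm d

theorem IsSplit.opPart_eq_liftAt (v : HeightOneSpectrum (𝓞 L)) :
    P.opPart (P.placeIdem v) = liftAt v (P.locOp v) := by
  have : Fact (0 < P.N) := ⟨hP.pos⟩
  let _ : Fintype (P.locRes v) := Fintype.ofFinite _
  rw [hP.locOp_eq v]
  refine LT.eq_liftAt_locSum (lvlIdeal_ne_bot P hP.pos) _ _ fun f g => ?_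
  rw [hP.opPart_mk ((placeIdem_spec hP.pos v).isIdem hP.pos), finsum_eq_sum_of_fintype,
    Finset.mul_sum, Finset.sum_subtype (p := fun M => M ∈ P.locRes v) _
      (fun M => (hP.resPart_finite (e := P.placeIdem v)).mem_toFinset)]
  refine Finset.sum_congr rfl fun M _ => ?_
  obtain ⟨o, -, h1, h2⟩ := hP.near_atPlace M.2
  rw [h1.mk_mul_eq hP.pos h2, ← mul_assoc]
  rfl

theorem IsSplit.op_eq_liftProd (s : Finset (HeightOneSpectrum (𝓞 L)))
    (hs : ∀ v, (P.N : 𝓞 L) ∈ v.asIdeal → v ∈ s) :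
    P.op = liftProd (s.toList.map fun v => opPair v (P.locOp v)) := by
  have hl : s.toList.Pairwise fun v v' => P.placeIdem v * P.placeIdem v' ∈ P.lvlIdeal :=
    s.nodup_toList.imp fun {v v'} h =>
      (placeIdem_spec hP.pos v).orth hP.pos (placeIdem_spec hP.pos v') h
  have h := (hP.opPart_list_prod P.placeIdem
    (fun v => (placeIdem_spec hP.pos v).isIdem hP.pos) s.toList hl).1
  rw [Finset.sum_map_toList, opPart_congr (sum_placeIdem hP.pos s hs), opPart_one] at h
  rw [← h, liftProd, List.map_map]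
  exact congrArg List.prod (List.map_congr_left fun v _ => hP.opPart_eq_liftAt v)

theorem IsSplit.opPart_idem {e : 𝓞 L} (he : P.IsIdem e) :
    P.opPart e * P.opPart e = P.opPart e := by
  have hfin := hP.resPart_finite (e := e)
  refine LinearMap.ext fun f => funext fun q => ?_
  obtain ⟨g, rfl⟩ := QuotientGroup.mk_surjective q
  have key : ∀ M ∈ P.resPart e, (P.chi M)⁻¹ *
      P.opPart e f ((g * P.lift M : GAf L) : Cosets P.lvlIdeal) =
      P.opPart e f (g : Cosets P.lvlIdeal) := by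
    intro M hM
    have hM' := hP.resPart_subset he hM
    have hmaps : Set.MapsTo (M * ·) (P.resPart e) (P.resPart e) := fun x hx =>
      ⟨M * x, hP.toIsGood.mul_mem_resSet hM' (hP.resPart_subset he hx), by
        rw [theta_mul he, theta_fix he hM, theta_fix he hx]⟩
    have hb := (hfin.injOn_iff_bijOn_of_mapsTo hmaps).mp
      fun _ _ _ _ h => (hP.toIsGood.isUnit_of_mem hM').mul_left_cancel h
    rw [hP.opPart_mk he, hP.opPart_mk he, ← mul_assoc, mul_comm (P.chi M)⁻¹, mul_assoc]
    refine congrArg _ ?_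
    rw [Finset.mul_sum]
    refine Finset.sum_bij (fun N _ => M * N)
      (fun N hN => hfin.mem_toFinset.mpr (hb.mapsTo (hfin.mem_toFinset.mp hN)))
      (fun N hN N' hN' h => hb.injOn (hfin.mem_toFinset.mp hN) (hfin.mem_toFinset.mp hN') h)
      (fun N hN => by
        obtain ⟨N', hN', h⟩ := hb.surjOn (hfin.mem_toFinset.mp hN)
        exact ⟨N', hfin.mem_toFinset.mpr hN', h⟩)
      fun N hN => ?_
    rw [hP.toIsGood.mk_lift_mul hM' (hP.resPart_subset he (hfin.mem_toFinset.mp hN)),
      hP.toIsGood.chi_mul hM' (hP.resPart_subset he (hfin.mem_toFinset.mp hN)), mul_inv, mul_assoc]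
  rw [Module.End.mul_apply, hP.opPart_mk he,
    Finset.sum_congr rfl fun M hM => key M (hfin.mem_toFinset.mp hM), Finset.sum_const,
    nsmul_eq_mul, ← Nat.card_eq_card_finite_toFinset hfin, ← mul_assoc,
    inv_mul_cancel₀ (hP.card_part_ne_zero e), one_mul]

theorem IsSplit.locOp_idem (v : HeightOneSpectrum (𝓞 L)) : P.locOp v * P.locOp v = P.locOp v := by
  refine LT.liftAt_injective v ?_
  rw [LT.liftAt_mul (lvlIdeal_ne_bot P hP.pos), ← hP.opPart_eq_liftAt v,
    hP.opPart_idem ((placeIdem_spec hP.pos v).isIdem hP.pos)]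

theorem IsSplit.locOp_eq_one {v : HeightOneSpectrum (𝓞 L)} (hv : (P.N : 𝓞 L) ∉ v.asIdeal) :
    P.locOp v = 1 := by
  refine LT.liftAt_injective v ?_
  rw [LT.liftAt_one (lvlIdeal_ne_bot P hP.pos), ← hP.opPart_eq_liftAt v,
    opPart_congr (e' := 0) ?_, hP.opPart_zero]
  rw [sub_zero, mem_lvlIdeal_iff hP.pos]
  intro u
  rcases eq_or_ne u v with rfl | hu
  · rw [lvl_eq_zero_of_notMem P hP.pos hv, Nat.cast_zero, neg_zero, exp_zero]
    exact LT.CO.valued_int_le_one _
  · exact (placeIdem_spec hP.pos v).2 u hu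

theorem IsSplit.isBddOp_locOp (v : HeightOneSpectrum (𝓞 L)) : LT.IsBddOp (P.locOp v) := by
  have : Fact (0 < P.N) := ⟨hP.pos⟩
  rw [hP.locOp_eq v]
  exact LT.isBddOp_locSum _ _

theorem IsSplit.lKer_locOp_smul (v : HeightOneSpectrum (𝓞 L)) (g : GLv v)
    (a b : LCos P.lvlIdeal v) : lKer (P.locOp v) (g • a) (g • b) = lKer (P.locOp v) a b := by
  classical
  have : Fact (0 < P.N) := ⟨hP.pos⟩
  obtain ⟨a, rfl⟩ := QuotientGroup.mk_surjective a
  have hk : ∀ M : P.locRes v, compAt v (P.lift M.1) ∈ locInt v := fun M =>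
    hP.lift_mem_locInt (hP.locRes_subset v M.2)
  rw [lKer, lKer, hP.locOp_eq v, MulAction.Quotient.smul_coe, LT.locSum_mk _ hk,
    LT.locSum_mk _ hk]
  refine finsum_congr fun M => congrArg _ ?_
  simp only [smul_eq_mul, Pi.single_apply, mul_assoc]
  rw [← smul_eq_mul g, ← MulAction.Quotient.smul_coe]
  simp only [smul_left_cancel_iff]

end FermatAgent.LTG.Box

end
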