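import Mathlib
import Fermat.Agent.LT.General.Level.Local

set_option autoImplicit false

/-!
# Congruences modulo the level through the idempotent of a place
-/

noncomputable section

open NumberField IsDedekindDomain WithZero
open FermatAgent.LT (loc)
open FermatAgent.LT.CO (lvl)

namespace FermatAgent.LTG

variable {L : Type*} [Field L] [NumberField L]

theorem natCast_dvd_of_valued {n : ℕ} (hn : 0 < n) {x : 𝓞 L}
    (h : ∀ u, Valued.v (loc u (x : L)) ≤ Valued.v (loc u ((n : 𝓞 L) : L))) : (n : 𝓞 L) ∣ x := by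
  rw [← Ideal.mem_span_singleton]
  refine (Box.mem_lvlIdeal_iff (P := ⟨⊥, ⊥, 0, 0, n⟩) hn).mpr fun u => (h u).trans_eq ?_
  exact Box.valued_natCast_N (⟨⊥, ⊥, 0, 0, n⟩ : Box L) hn u

theorem valued_natCast_le_of_dvd {a b : ℕ} (h : a ∣ b) (u : HeightOneSpectrum (𝓞 L)) :
    Valued.v (loc u ((b : 𝓞 L) : L)) ≤ Valued.v (loc u ((a : 𝓞 L) : L)) := by
  obtain ⟨c, rfl⟩ := h
  rw [Nat.cast_mul, RingOfIntegers.coe_eq_algebraMap, map_mul, map_mul, map_mul,
    ← RingOfIntegers.coe_eq_algebraMap, ← RingOfIntegers.coe_eq_algebraMap]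
  exact mul_le_of_le_one_right' (LT.CO.valued_int_le_one _)

theorem ratChar_eq_one_iff {M : ℕ} (hM : M ≠ 0) {t : ℤ} : ratChar M t = 1 ↔ (M : ℤ) ∣ t := by
  refine ⟨fun h => ?_, ratChar_of_dvd⟩
  rw [ratChar, Complex.exp_eq_one_iff] at h
  obtain ⟨n, hn⟩ := h
  refine ⟨n, Int.cast_injective (α := ℂ) ?_⟩
  have hM' : (M : ℂ) ≠ 0 := Nat.cast_ne_zero.mpr hM
  have hpi : (2 * Real.pi * Complex.I : ℂ) ≠ 0 := Complex.two_pi_I_ne_zero
  rw [div_eq_iff hM'] at hn
  push_cast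
  exact mul_left_cancel₀ hpi (by rw [hn]; ring)

namespace Box

variable {P : Box L} (hN : 0 < P.N)
include hN

omit hN in
theorem ratChar_congr_mem (hdvd : P.M₁ ∣ P.N) {x y : 𝓞 L} (h : x - y ∈ P.lvlIdeal) :
    ratChar P.M₁ (Algebra.trace ℤ (𝓞 L) x) = ratChar P.M₁ (Algebra.trace ℤ (𝓞 L) y) := by
  refine ratChar_congr ?_
  obtain ⟨o, ho⟩ := Ideal.mem_span_singleton.mp h
  rw [← map_sub, ho, ← nsmul_eq_mul, map_nsmul, nsmul_eq_mul]
  exact (Int.natCast_dvd_natCast.mpr hdvd).mul_right _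

theorem ratChar_idem_congr (hdvd : P.M₁ ∣ P.N) (w : HeightOneSpectrum (𝓞 L)) {x y : 𝓞 L}
    (h : Valued.v (loc w ((x - y : 𝓞 L) : L)) ≤ Valued.v (loc w ((P.M₁ : 𝓞 L) : L))) :
    ratChar P.M₁ (Algebra.trace ℤ (𝓞 L) (P.placeIdem w * x)) =
      ratChar P.M₁ (Algebra.trace ℤ (𝓞 L) (P.placeIdem w * y)) := by
  refine ratChar_congr ?_
  have hd : (P.M₁ : 𝓞 L) ∣ P.placeIdem w * (x - y) := by
    refine natCast_dvd_of_valued (Nat.pos_of_dvd_of_pos hdvd hN) fun u => ?_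
    rw [RingOfIntegers.coe_eq_algebraMap, map_mul, map_mul, map_mul,
      ← RingOfIntegers.coe_eq_algebraMap, ← RingOfIntegers.coe_eq_algebraMap]
    rcases eq_or_ne u w with rfl | hu
    · exact mul_le_of_le_one_of_le (LT.CO.valued_int_le_one _) h
    · refine mul_le_of_le_of_le_one (((placeIdem_spec hN w).2 u hu).trans ?_)
        (LT.CO.valued_int_le_one _)
      rw [← valued_natCast_N P hN]
      exact valued_natCast_le_of_dvd hdvd u
  obtain ⟨o, ho⟩ := hd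
  rw [← map_sub, ← mul_sub, ho, ← nsmul_eq_mul, map_nsmul, nsmul_eq_mul]
  exact (dvd_refl _).mul_right _

end Box

end FermatAgent.LTG

end
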