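import Mathlib
import Fermat.Agent.LT.General.Level.Facts
import Fermat.Agent.LT.General.Level.Local
import Fermat.Agent.LT.General.Geom.Local.Places

set_option autoImplicit false

/-!
# The box groups of the levels split over the places
-/

noncomputable section

open NumberField IsDedekindDomain WithZero
open FermatAgent.LT (galInt galPlace loc)

namespace FermatAgent.LTG

local notation "Qb" => AlgebraicClosure ℚ

namespace Setup

variable {S : Setup} {σ : S.F ≃+* S.F}

/-- Divisibility by `3` at a place, by a local multiplier. -/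
theorem exists_mul_dvd_iff {L : Type*} [Field L] [NumberField L] (w : HeightOneSpectrum (𝓞 L))
    (T : 𝓞 L) : (∃ s ∉ w.asIdeal, (3 : 𝓞 L) ∣ s * T) ↔
      Valued.v (loc w (T : L)) ≤ Valued.v (loc w ((3 : 𝓞 L) : L)) := by
  constructor
  · rintro ⟨s, hs, c, hc⟩
    have h1 : Valued.v (loc w (s : L)) = 1 := by
      rw [LT.valued_loc, RingOfIntegers.coe_eq_algebraMap,
        HeightOneSpectrum.valuation_of_algebraMap, HeightOneSpectrum.intValuation_eq_one_iff]
      exact hs
    have h := congrArg (fun z : 𝓞 L => Valued.v (loc w (z : L))) hc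
    simp only [RingOfIntegers.coe_eq_algebraMap, map_mul] at h h1 ⊢
    rw [h1, one_mul] at h
    rw [h]
    exact mul_le_of_le_one_right' (LT.CO.valued_int_le_one c)
  · intro hT
    classical
    let P : Box L := ⟨⊥, ⊥, 0, 0, 3⟩
    have hN : 0 < P.N := show (0 : ℕ) < 3 by norm_num
    have h3 : ((P.N : 𝓞 L) : L) = ((3 : 𝓞 L) : L) := by norm_num [P]
    have hfin := Filter.eventually_cofinite.mp
      (LT.CO.eventually_lvl (Box.lvlIdeal_ne_bot P hN))
    obtain ⟨s, hs⟩ := LT.exists_int_close_finset (insert w hfin.toFinset)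
      (fun u => if u = w then 1 else 0) (fun u => LT.CO.lvl P.lvlIdeal u + 1) fun u _ => by
        split_ifs <;> simp
    refine ⟨s, fun hmem => ?_, ?_⟩
    · have h := hs w (Finset.mem_insert_self _ _)
      have h1 : Valued.v (loc w (s : L)) < 1 := by
        rw [LT.valued_loc, RingOfIntegers.coe_eq_algebraMap,
          HeightOneSpectrum.valuation_of_algebraMap, HeightOneSpectrum.intValuation_lt_one_iff_mem]
        exact hmem
      rw [if_pos rfl, Valuation.map_one_sub_of_lt _ h1, ← exp_zero, exp_le_exp] at h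
      omega
    · rw [show (3 : 𝓞 L) = (P.N : 𝓞 L) by norm_num [P], ← Ideal.mem_span_singleton]
      refine (Box.mem_lvlIdeal_iff (P := P) hN).mpr fun u => ?_
      rw [RingOfIntegers.coe_eq_algebraMap, map_mul, map_mul, map_mul,
        ← RingOfIntegers.coe_eq_algebraMap, ← RingOfIntegers.coe_eq_algebraMap]
      rcases eq_or_ne u w with rfl | hu
      · refine mul_le_of_le_one_of_le (LT.CO.valued_int_le_one s) (hT.trans_eq ?_)
        rw [← h3, Box.valued_natCast_N P hN]
      · by_cases h0 : LT.CO.lvl P.lvlIdeal u = 0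
        · rw [h0, Nat.cast_zero, neg_zero, exp_zero]
          exact mul_le_one' (LT.CO.valued_int_le_one s) (LT.CO.valued_int_le_one T)
        · have h := hs u (Finset.mem_insert_of_mem (by simpa using h0))
          rw [if_neg hu, zero_sub, Valuation.map_neg] at h
          refine mul_le_of_le_of_le_one (h.trans ?_) (LT.CO.valued_int_le_one T)
          rw [exp_le_exp]
          omega

theorem mem_boxBF_iff (x : 𝓞 S.F) : x ∈ S.boxBF σ ↔
    ∀ w : HeightOneSpectrum (𝓞 S.F), w ∈ S.badPlaces S.F → S.IsFixed (S.underK w) →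
      Valued.v (loc w ((x + galInt σ x + galInt σ (galInt σ x) : 𝓞 S.F) : S.F)) ≤
        Valued.v (loc w ((3 : 𝓞 S.F) : S.F)) :=
  forall_congr' fun w => forall_congr' fun _ => forall_congr' fun _ => exists_mul_dvd_iff w _

theorem mem_boxBK_iff (x : 𝓞 S.K) : x ∈ S.boxBK ↔
    ∀ v : HeightOneSpectrum (𝓞 S.K), v ∈ S.badPlaces S.K → S.IsFixed v →
      Valued.v (loc v (x : S.K)) ≤ Valued.v (loc v ((3 : 𝓞 S.K) : S.K)) :=
  forall_congr' fun v => forall_congr' fun _ => forall_congr' fun _ => exists_mul_dvd_iff v _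

theorem IsGalGen.galPlace_of_isFixed (hσ : S.IsGalGen σ) {w : HeightOneSpectrum (𝓞 S.F)}
    (hf : S.IsFixed (S.underK w)) : galPlace σ w = w :=
  hf _ _ (S.underK_galPlace hσ w) rfl

theorem IsGalGen.isFixed_iff (hσ : S.IsGalGen σ) (w : HeightOneSpectrum (𝓞 S.F)) :
    S.IsFixed (S.underK w) ↔ galPlace σ w = w :=
  ⟨IsGalGen.galPlace_of_isFixed hσ, fun h _ _ h1 h2 =>
    (eq_of_galPlace_fixed hσ h h1).trans (eq_of_galPlace_fixed hσ h h2).symm⟩

theorem valued_galInt (w : HeightOneSpectrum (𝓞 S.F)) (y : 𝓞 S.F) :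
    Valued.v (loc w ((galInt σ y : 𝓞 S.F) : S.F)) = Valued.v (loc (galPlace σ w) (y : S.F)) := by
  rw [LT.galInt_coe, LT.valued_loc, LT.valued_loc, LT.valuation_gal]

namespace Level

variable (D : S.Level)

theorem exp_lvl_le_three {L : IntermediateField ℚ Qb} [NumberField L]
    (w : HeightOneSpectrum (𝓞 L)) :
    exp (-(LT.CO.lvl (D.levelIdeal L) w : ℤ)) ≤ Valued.v (loc w ((3 : 𝓞 L) : L)) := by
  have h := Box.valued_natCast_N (⟨⊥, ⊥, 0, 0, D.lvl⟩ : Box L) D.lvl_pos w
  obtain ⟨c, hc⟩ := three_dvd_pow (S := S) (R := 𝓞 L) (n := D.l + 2) (by omega)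
  rw [show (exp (-(LT.CO.lvl (D.levelIdeal L) w : ℤ))) = _ from h.symm]
  show Valued.v (loc w (((S.m ^ (D.l + 2) : ℕ) : 𝓞 L) : L)) ≤ _
  rw [hc, RingOfIntegers.coe_eq_algebraMap, map_mul, map_mul, map_mul,
    ← RingOfIntegers.coe_eq_algebraMap]
  exact mul_le_of_le_one_right' (LT.CO.valued_int_le_one c)

theorem exp_lvl_galPlace (w : HeightOneSpectrum (𝓞 S.F)) :
    LT.CO.lvl (D.levelIdeal S.F) (galPlace σ w) = LT.CO.lvl (D.levelIdeal S.F) w :=
  LT.CO.lvl_galPlace (D.levelIdeal_ne_bot S.F) (D.levelIdeal_map σ) w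

theorem idem_mul_mem_boxBF (hσ : S.IsGalGen σ) {e : 𝓞 S.F} (he : (D.boxF σ).IsIdem e) {b : 𝓞 S.F}
    (hb : b ∈ S.boxBF σ) : e * b ∈ S.boxBF σ := by
  rw [mem_boxBF_iff] at hb ⊢
  intro w hw hf
  have hfix := IsGalGen.galPlace_of_isFixed hσ hf
  have hval : ∀ y : 𝓞 S.F, Valued.v (loc w (y : S.F)) ≤ exp (-(LT.CO.lvl (D.levelIdeal S.F) w : ℤ)) →
      Valued.v (loc w ((y + galInt σ y + galInt σ (galInt σ y) : 𝓞 S.F) : S.F)) ≤
        Valued.v (loc w ((3 : 𝓞 S.F) : S.F)) := fun y hy => by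
    refine le_trans ?_ (D.exp_lvl_le_three w)
    simp only [map_add]
    have hgal : ∀ z : 𝓞 S.F, Valued.v (loc w ((galInt σ z : 𝓞 S.F) : S.F)) =
        Valued.v (loc w (z : S.F)) := fun z => by
      have h : ∀ w' : HeightOneSpectrum (𝓞 S.F), w' = w →
          Valued.v (loc w' (z : S.F)) = Valued.v (loc w (z : S.F)) := fun w' h => by rw [h]
      rw [valued_galInt, h _ hfix]
    refine (Valuation.map_add _ _ _).trans (max_le ((Valuation.map_add _ _ _).trans
      (max_le hy ?_)) ?_) <;> simp only [← RingOfIntegers.coe_eq_algebraMap, hgal]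
    · exact hy
    · exact hy
  rcases Box.IsIdem.dichotomy (D.lvl_pos) he w with h | h
  · refine hval _ ?_
    simp only [RingOfIntegers.coe_eq_algebraMap, map_mul] at h ⊢
    exact mul_le_of_le_of_le_one h (LT.CO.valued_int_le_one b)
  · have h' : Valued.v (loc w (((e - 1) * b : 𝓞 S.F) : S.F)) ≤
        exp (-(LT.CO.lvl (D.levelIdeal S.F) w : ℤ)) := by
      simp only [RingOfIntegers.coe_eq_algebraMap, map_mul, map_sub, map_one] at h ⊢
      exact mul_le_of_le_of_le_one h (LT.CO.valued_int_le_one b)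
    rw [show e * b + galInt σ (e * b) + galInt σ (galInt σ (e * b)) =
      (b + galInt σ b + galInt σ (galInt σ b)) + ((e - 1) * b + galInt σ ((e - 1) * b) +
        galInt σ (galInt σ ((e - 1) * b))) by simp only [sub_mul, one_mul, map_sub]; ring,
      RingOfIntegers.coe_eq_algebraMap, map_add, map_add]
    exact (Valuation.map_add _ _ _).trans (max_le (hb w hw hf) (hval _ h'))

theorem isSplit_boxF (hσ : S.IsGalGen σ) : (D.boxF σ).IsSplit := by
  refine ⟨D.isGood_boxF σ, fun e he a ha b hb => ?_, fun e he b hb => D.idem_mul_mem_boxBF hσ he hb⟩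
  rw [mul_comm e a, mul_assoc]
  exact ha _ (D.idem_mul_mem_boxBF hσ he hb)

theorem isSplit_boxK : D.boxK.IsSplit := by
  refine ⟨D.isGood_boxK, ?_, ?_⟩
  · intro e _ a ha o
    rw [mul_comm e a, mul_assoc]
    exact ha _
  · intro e _ b hb
    rw [mem_boxBK_iff] at hb ⊢
    intro v hv hf
    simp only [RingOfIntegers.coe_eq_algebraMap, map_mul] at hb ⊢
    exact mul_le_of_le_one_of_le (LT.CO.valued_int_le_one e) (hb v hv hf)

end Level

end Setup

end FermatAgent.LTG

end
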