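import Mathlib
import Fermat.Agent.LT.General.Level.Local
import Fermat.Agent.LT.Descent.Geom.Local.ProRoot

set_option autoImplicit false

/-!
# The kernel of the local projection of a box
-/

noncomputable section

open NumberField IsDedekindDomain Matrix WithZero
open FermatAgent.LT (LCos GLv compAt locInt lKer loc locLevel)
open FermatAgent.LT.CO (lvl SmallM)

namespace FermatAgent.LTG.Box

variable {L : Type*} [Field L] [NumberField L] (P : Box L)

open Classical in
/-- The normalisation of the local kernel. -/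
def locCst (v : HeightOneSpectrum (𝓞 L)) : ℂ :=
  ∑ᶠ M ∈ P.locRes v, if compAt v (P.lift M) ∈ locLevel P.lvlIdeal v then
    (Nat.card (P.locRes v) : ℂ)⁻¹ * (P.chi M)⁻¹ else 0

/-- The element meets the box group at the place with the value `c` of the character. -/
def MeetsBox (v : HeightOneSpectrum (𝓞 L)) (g : GLv v) (c : ℂ) : Prop :=
  ∃ a ∈ P.A, ∃ b ∈ P.B, ∃ x ∈ P.B, ∃ d ∈ P.A, ∃ z ∈ Subgroup.center (GLv v),
    z * g ∈ LT.CO.locCongr v 0 ∧
    SmallM v (lvl P.lvlIdeal v) ((z * g).val - oMat v (P.oBox a b x d)) ∧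
    c = ratChar P.M₁ (Algebra.trace ℤ (𝓞 L) (P.placeIdem v * b))

variable {P}

theorem IsSplit.compAt_mul_mem (hP : P.IsSplit) (v : HeightOneSpectrum (𝓞 L))
    {M M' : Matrix (Fin 2) (Fin 2) (𝓞 L ⧸ P.lvlIdeal)} (hM : M ∈ P.resSet) (hM' : M' ∈ P.resSet) :
    (compAt v (P.lift M) * compAt v (P.lift M'))⁻¹ * compAt v (P.lift (M * M')) ∈
      LT.locCongr P.lvlIdeal v := by
  obtain ⟨o, ho, h⟩ := hP.toIsGood.near_lift hM
  obtain ⟨o', ho', h'⟩ := hP.toIsGood.near_lift hM'
  have h'' := hP.toIsGood.near_lift' (hP.toIsGood.mul_mem_resSet hM hM') (o := o * o')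
    (by rw [Matrix.map_mul, ho, ho'])
  obtain ⟨a1, a2⟩ := (h.mul h') v
  obtain ⟨b1, b2⟩ := h'' v
  rw [Box.locCongr_eq hP.pos, ← map_mul, compAt_eq_locMat, compAt_eq_locMat]
  refine LT.CO.inv_mul_mem_locCongr a1 b1 ?_
  rw [show (LT.CO.locMat v (P.lift (M * M'))).val - (LT.CO.locMat v (P.lift M * P.lift M')).val =
    ((LT.CO.locMat v (P.lift (M * M'))).val - oMat v (o * o')) +
      -((LT.CO.locMat v (P.lift M * P.lift M')).val - oMat v (o * o')) by abel]
  exact b2.add a2.neg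

theorem smallM_oBox_idem {v : HeightOneSpectrum (𝓞 L)} (hN : 0 < P.N) (a b c d : 𝓞 L) :
    SmallM v (lvl P.lvlIdeal v) (oMat v (P.oBox (P.placeIdem v * a) (P.placeIdem v * b)
      (P.placeIdem v * c) (P.placeIdem v * d)) - oMat v (P.oBox a b c d)) := by
  have he := (placeIdem_spec (P := P) hN v).1
  have key : ∀ x : 𝓞 L, Valued.v (loc v ((P.placeIdem v : L) * (x : L)) - loc v (x : L)) ≤
      exp (-(lvl P.lvlIdeal v : ℤ)) := fun x => by
    rw [map_mul, ← sub_one_mul, map_mul]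
    exact mul_le_of_le_of_le_one he (LT.CO.valued_int_le_one x)
  intro i j
  rw [Matrix.sub_apply, oMat_apply, oMat_apply]
  fin_cases i <;> fin_cases j
  · simpa [oBox] using key a
  · simpa [oBox] using key b
  · simpa [oBox, mul_left_comm] using key ((P.M₂ : 𝓞 L) * c)
  · simpa [oBox] using key d

theorem valued_of_mem_locLevel {v : HeightOneSpectrum (𝓞 L)} (hN : 0 < P.N) {k : GLv v}
    (hk : k ∈ LT.CO.locCongr v 0) (h : k ∈ locLevel P.lvlIdeal v) :
    Valued.v (k.val 0 1) ≤ exp (-(lvl P.lvlIdeal v : ℤ)) := by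
  obtain ⟨c, hc, z, hz, rfl⟩ := Subgroup.mem_sup_of_normal_right.mp h
  rw [Box.locCongr_eq hN] at hc
  rcases Nat.eq_zero_or_pos (lvl P.lvlIdeal v) with h0 | h0
  · rw [h0]
    simpa using (LT.CO.smallM_of_mem hk).le_one 0 1
  rw [Matrix.GeneralLinearGroup.center_eq_range_scalar] at hz
  obtain ⟨u, rfl⟩ := hz
  have e : ∀ i j, (c * Matrix.GeneralLinearGroup.scalar (Fin 2) u).val i j =
      c.val i j * (u : v.adicCompletion L) := fun i j => by
    rw [Units.val_mul, Matrix.GeneralLinearGroup.scalar]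
    fin_cases i <;> fin_cases j <;> simp [Matrix.mul_apply, Fin.sum_univ_two]
  have h00 : Valued.v (c.val 0 0) = 1 := by
    refine (Valuation.map_eq_of_sub_lt _ ?_).trans (map_one Valued.v)
    rw [map_one]
    have := hc.1 0 0
    rw [Matrix.sub_apply, Matrix.one_apply_eq] at this
    refine this.trans_lt ?_
    rw [← exp_zero, exp_lt_exp]
    omega
  have hu : Valued.v (u : v.adicCompletion L) ≤ 1 := by
    have := (LT.CO.smallM_of_mem hk).le_one 0 0
    rwa [e, map_mul, h00, one_mul] at this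
  rw [e, map_mul]
  refine mul_le_of_le_of_le_one ?_ hu
  have := hc.1 0 1
  rwa [Matrix.sub_apply, Matrix.one_apply_ne (by decide), sub_zero] at this

variable (hP : P.IsSplit)
include hP

theorem IsSplit.locRes_finite (v : HeightOneSpectrum (𝓞 L)) : (P.locRes v).Finite :=
  (resSet_finite hP.pos).image _

theorem IsSplit.locRes_mul {v : HeightOneSpectrum (𝓞 L)}
    {M M' : Matrix (Fin 2) (Fin 2) (𝓞 L ⧸ P.lvlIdeal)} (hM : M ∈ P.locRes v)
    (hM' : M' ∈ P.locRes v) : M * M' ∈ P.locRes v := by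
  have he := (placeIdem_spec hP.pos v).isIdem hP.pos
  exact ⟨M * M', hP.toIsGood.mul_mem_resSet (hP.locRes_subset v hM) (hP.locRes_subset v hM'), by
    rw [theta_mul he, theta_fix he hM, theta_fix he hM']⟩

open Classical in
/-- The kernel outside and inside the box group. -/
theorem IsSplit.lKer_locOp (v : HeightOneSpectrum (𝓞 L)) (a b : GLv v) :
    (∀ M ∈ P.locRes v, (compAt v (P.lift M))⁻¹ * (a⁻¹ * b) ∉ locLevel P.lvlIdeal v) ∧
        lKer (P.locOp v) (a : LCos P.lvlIdeal v) (b : LCos P.lvlIdeal v) = 0 ∨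
      ∃ M ∈ P.locRes v, (compAt v (P.lift M))⁻¹ * (a⁻¹ * b) ∈ locLevel P.lvlIdeal v ∧
        lKer (P.locOp v) (a : LCos P.lvlIdeal v) (b : LCos P.lvlIdeal v) =
          (P.chi M)⁻¹ * P.locCst v := by
  have : Fact (0 < P.N) := ⟨hP.pos⟩
  have hk : ∀ M : P.locRes v, compAt v (P.lift M.1) ∈ locInt v := fun M =>
    hP.lift_mem_locInt (hP.locRes_subset v M.2)
  have hfin := hP.locRes_finite v
  let _ : Fintype (P.locRes v) := hfin.fintype
  have hker : lKer (P.locOp v) (a : LCos P.lvlIdeal v) (b : LCos P.lvlIdeal v) =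
      ∑ M ∈ hfin.toFinset, if (compAt v (P.lift M))⁻¹ * (a⁻¹ * b) ∈ locLevel P.lvlIdeal v then
        (Nat.card (P.locRes v) : ℂ)⁻¹ * (P.chi M)⁻¹ else 0 := by
    rw [lKer, hP.locOp_eq, LT.locSum_mk _ hk, finsum_eq_sum_of_fintype,
      Finset.sum_subtype (p := fun M => M ∈ P.locRes v) _ (fun M => hfin.mem_toFinset)]
    refine Finset.sum_congr rfl fun M _ => ?_
    rw [Pi.single_apply, mul_ite, mul_one, mul_zero]
    refine if_congr ?_ rfl rfl
    rw [QuotientGroup.eq, _root_.mul_inv_rev, mul_assoc]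
  by_cases h : ∃ M ∈ P.locRes v, (compAt v (P.lift M))⁻¹ * (a⁻¹ * b) ∈ locLevel P.lvlIdeal v
  swap
  · push Not at h
    exact Or.inl ⟨h, hker.trans (Finset.sum_eq_zero fun M hM => if_neg (h M (hfin.mem_toFinset.mp hM)))⟩
  obtain ⟨M₀, hM₀, h₀⟩ := h
  refine Or.inr ⟨M₀, hM₀, h₀, hker.trans ?_⟩
  rw [locCst, finsum_mem_eq_finite_toFinset_sum _ hfin, Finset.mul_sum]
  have hmaps : Set.MapsTo (M₀ * ·) (P.locRes v) (P.locRes v) := fun _ hx => hP.locRes_mul hM₀ hx
  have hb := (hfin.injOn_iff_bijOn_of_mapsTo hmaps).mp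
    fun _ _ _ _ h => (hP.toIsGood.isUnit_of_mem (hP.locRes_subset v hM₀)).mul_left_cancel h
  refine (Finset.sum_bij (fun N _ => M₀ * N)
    (fun N hN => hfin.mem_toFinset.mpr (hb.mapsTo (hfin.mem_toFinset.mp hN)))
    (fun N hN N' hN' h => hb.injOn (hfin.mem_toFinset.mp hN) (hfin.mem_toFinset.mp hN') h)
    (fun N hN => by
      obtain ⟨N', hN', h⟩ := hb.surjOn (hfin.mem_toFinset.mp hN)
      exact ⟨N', hfin.mem_toFinset.mpr hN', h⟩)
    fun N hN => ?_).symm
  have hN := hfin.mem_toFinset.mp hN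
  have hc := hP.compAt_mul_mem v (hP.locRes_subset v hM₀) (hP.locRes_subset v hN)
  set k₀ := compAt v (P.lift M₀)
  set k := compAt v (P.lift N)
  set k' := compAt v (P.lift (M₀ * N))
  set l := k₀⁻¹ * (a⁻¹ * b)
  have e : k'⁻¹ * (a⁻¹ * b) = ((k₀ * k)⁻¹ * k')⁻¹ * k⁻¹ * l := by simp only [l]; group
  have hiff : k ∈ locLevel P.lvlIdeal v ↔ k'⁻¹ * (a⁻¹ * b) ∈ locLevel P.lvlIdeal v := by
    rw [e, Subgroup.mul_mem_cancel_right _ h₀,
      Subgroup.mul_mem_cancel_left _ (show ((k₀ * k)⁻¹ * k')⁻¹ ∈ locLevel P.lvlIdeal v from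
      inv_mem (Subgroup.mem_sup_left hc)), inv_mem_iff]
  rw [mul_ite, mul_zero, if_congr hiff rfl rfl,
    hP.toIsGood.chi_mul (hP.locRes_subset v hM₀) (hP.locRes_subset v hN), mul_inv]
  split_ifs
  · ring
  · rfl

theorem IsSplit.locCst_ne_zero (v : HeightOneSpectrum (𝓞 L)) : P.locCst v ≠ 0 := by
  classical
  have hfin := hP.locRes_finite v
  have he := placeIdem_spec hP.pos v
  have hone : ∀ M ∈ P.locRes v, compAt v (P.lift M) ∈ locLevel P.lvlIdeal v → P.chi M = 1 := by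
    intro M hM h
    obtain ⟨o, ho, hn⟩ := hP.toIsGood.near_lift (hP.locRes_subset v hM)
    have hfix := theta_fix (he.isIdem hP.pos) hM
    have h01 : Ideal.Quotient.mk P.lvlIdeal (P.placeIdem v * o 0 1) = M 0 1 := by
      have h1 := congrFun (congrFun hfix 0) 1
      simp only [theta, Matrix.add_apply, Matrix.smul_apply, Matrix.sub_apply, smul_eq_mul,
        Matrix.one_apply_ne (show (0 : Fin 2) ≠ 1 by decide), sub_zero, zero_add] at h1
      rw [map_mul, show Ideal.Quotient.mk P.lvlIdeal (o 0 1) = M 0 1 from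
        congrFun (congrFun ho 0) 1, h1]
    have hv := valued_of_mem_locLevel hP.pos (hn v).1 h
    have hmem : P.placeIdem v * o 0 1 ∈ P.lvlIdeal := by
      refine (mem_lvlIdeal_iff hP.pos).mpr fun u => ?_
      rw [RingOfIntegers.coe_eq_algebraMap, map_mul, map_mul, map_mul,
        ← RingOfIntegers.coe_eq_algebraMap, ← RingOfIntegers.coe_eq_algebraMap]
      rcases eq_or_ne u v with rfl | hu
      · refine mul_le_of_le_one_of_le (LT.CO.valued_int_le_one _) ?_
        have h2 := (hn u).2 0 1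
        rw [Matrix.sub_apply, oMat_apply] at h2
        have h3 := (Valuation.map_sub _ _ _).trans (max_le hv h2)
        rwa [sub_sub_cancel] at h3
      · exact mul_le_of_le_of_le_one (he.2 u hu) (LT.CO.valued_int_le_one _)
    rw [hP.toIsGood.chi_eq (zero_mem _) (by
      rw [← h01, map_zero]; exact Ideal.Quotient.eq_zero_iff_mem.mpr hmem), map_zero, ratChar_zero]
  have h1mem : (1 : Matrix (Fin 2) (Fin 2) (𝓞 L ⧸ P.lvlIdeal)) ∈ P.locRes v :=
    one_mem_resPart _
  have h1 : compAt v (P.lift 1) ∈ locLevel P.lvlIdeal v := by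
    obtain ⟨n1, n2⟩ := hP.toIsGood.near_lift' (one_mem_resSet (P := P)) (o := 1)
      (Matrix.map_one _ (map_zero _) (map_one _)) v
    refine Subgroup.mem_sup_left ?_
    rw [Box.locCongr_eq hP.pos]
    refine LT.CO.mem_locCongr_of n1 ?_
    have e : oMat v (1 : Matrix (Fin 2) (Fin 2) (𝓞 L)) = 1 := by
      refine Matrix.ext fun i j => ?_
      rw [oMat_apply]
      fin_cases i <;> fin_cases j <;> simp
    rwa [e] at n2
  rw [locCst, finsum_mem_eq_finite_toFinset_sum _ hfin, ← Finset.sum_filter]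
  rw [Finset.sum_congr rfl (g := fun _ => (Nat.card (P.locRes v) : ℂ)⁻¹) fun M hM => by
    rw [Finset.mem_filter, Set.Finite.mem_toFinset] at hM
    rw [hone M hM.1 hM.2, inv_one, mul_one], Finset.sum_const, nsmul_eq_mul]
  refine mul_ne_zero (Nat.cast_ne_zero.mpr ?_) (inv_ne_zero (hP.card_part_ne_zero _))
  exact (Finset.card_pos.mpr ⟨1, Finset.mem_filter.mpr ⟨hfin.mem_toFinset.mpr h1mem, h1⟩⟩).ne'

/-- The kernel by the entries. -/
theorem IsSplit.lKer_locOp_entries (v : HeightOneSpectrum (𝓞 L)) (a b : GLv v) :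
    (lKer (P.locOp v) (a : LCos P.lvlIdeal v) (b : LCos P.lvlIdeal v) ≠ 0 →
      ∃ c, P.MeetsBox v (a⁻¹ * b) c) ∧
    ∀ c, P.MeetsBox v (a⁻¹ * b) c → ∃ c',
      P.MeetsBox v (a⁻¹ * b) c' ∧
        lKer (P.locOp v) (a : LCos P.lvlIdeal v) (b : LCos P.lvlIdeal v) = c'⁻¹ * P.locCst v := by
  have he := placeIdem_spec hP.pos v
  have hi := he.isIdem hP.pos
  set g := a⁻¹ * b
  have fwd : ∀ M ∈ P.locRes v, (compAt v (P.lift M))⁻¹ * g ∈ locLevel P.lvlIdeal v →
      P.MeetsBox v g (P.chi M) := by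
    intro M hM h
    obtain ⟨_, ⟨a, ha, b, hb, x, hx, d, hd, rfl⟩, rfl⟩ := hM
    rw [theta_resMat] at h ⊢
    have ha' := hP.idem_A _ hi a ha
    have hb' := hP.idem_B _ hi b hb
    have hx' := hP.idem_B _ hi x hx
    have hd' := hP.idem_A _ hi d hd
    set e := P.placeIdem v
    obtain ⟨n1, n2⟩ := hP.toIsGood.near_lift' (M := P.resMat (e * a) (e * b) (e * x) (e * d))
      ⟨_, ha', _, hb', _, hx', _, hd', rfl⟩ (o := P.oBox (e * a) (e * b) (e * x) (e * d)) rfl v
    obtain ⟨k, hk, z, hz, hkz⟩ := Subgroup.mem_sup_of_normal_right.mp h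
    rw [Box.locCongr_eq hP.pos] at hk
    set K := compAt v (P.lift (P.resMat (e * a) (e * b) (e * x) (e * d)))
    refine ⟨_, ha', _, hb', _, hx', _, hd', z⁻¹, inv_mem hz, ?_⟩
    have hgz : z⁻¹ * g = K * k := by
      rw [show g = K * (K⁻¹ * g) by group, ← hkz, ← mul_assoc K k z,
        ← Subgroup.mem_center_iff.mp (inv_mem hz) (K * k * z), mul_inv_cancel_right]
    rw [hgz]
    refine ⟨mul_mem n1 (LT.CO.locCongr_anti (Nat.zero_le _) hk), ?_, ?_⟩
    · intro i j
      have h1 := LT.valued_sub_of_congr hk (LT.CO.smallM_of_mem n1) i j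
      have h2 := (Valuation.map_add _ _ _).trans (max_le h1 (n2 i j))
      show Valued.v (((K * k).val - oMat v (P.oBox (e * a) (e * b) (e * x) (e * d))) i j) ≤ _
      refine le_of_eq_of_le (congrArg _ ?_) h2
      rw [Matrix.sub_apply, Matrix.sub_apply]
      simp only [K, compAt_eq_locMat]
      ring
    · rw [hP.toIsGood.chi_resMat hb']
      refine ratChar_congr ?_
      have hm : e * b - e * (e * b) ∈ P.lvlIdeal := by
        rw [show e * b - e * (e * b) = -b * (e * e - e) by ring]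
        exact Ideal.mul_mem_left _ _ hi
      obtain ⟨o, ho⟩ := Ideal.mem_span_singleton.mp hm
      rw [← map_sub, ho, ← nsmul_eq_mul, map_nsmul, nsmul_eq_mul]
      exact (Int.natCast_dvd_natCast.mpr hP.M₁_dvd).mul_right _
  refine ⟨fun h => ?_, fun c hc => ?_⟩
  · rcases hP.lKer_locOp v a b with ⟨-, h0⟩ | ⟨M, hM, hMl, -⟩
    · exact absurd h0 h
    · exact ⟨_, fwd M hM hMl⟩
  rcases hP.lKer_locOp v a b with ⟨hno, -⟩ | ⟨M, hM, hMl, hval⟩
  swap
  · exact ⟨_, fwd M hM hMl, hval⟩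
  exfalso
  obtain ⟨a', ha, b', hb, x, hx, d, hd, z, hz, g1, g2, -⟩ := hc
  have hmem : P.resMat (P.placeIdem v * a') (P.placeIdem v * b') (P.placeIdem v * x)
      (P.placeIdem v * d) ∈ P.locRes v :=
    ⟨P.resMat a' b' x d, ⟨a', ha, b', hb, x, hx, d, hd, rfl⟩, theta_resMat _ _ _ _ _⟩
  refine hno _ hmem ?_
  obtain ⟨n1, n2⟩ := hP.toIsGood.near_lift' (hP.locRes_subset v hmem)
    (o := P.oBox (P.placeIdem v * a') (P.placeIdem v * b') (P.placeIdem v * x)
      (P.placeIdem v * d)) rfl v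
  have hd2 := (g2.add (smallM_oBox_idem (v := v) hP.pos a' b' x d).neg).add n2.neg
  set K := compAt v (P.lift (P.resMat (P.placeIdem v * a') (P.placeIdem v * b')
    (P.placeIdem v * x) (P.placeIdem v * d)))
  have hc := LT.CO.inv_mul_mem_locCongr (n := lvl P.lvlIdeal v) n1 g1 (fun i j => by
    have h := hd2 i j
    rwa [show ((z * g).val - oMat v (P.oBox a' b' x d) +
        -(oMat v (P.oBox (P.placeIdem v * a') (P.placeIdem v * b') (P.placeIdem v * x)
          (P.placeIdem v * d)) - oMat v (P.oBox a' b' x d)) +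
        -((LT.CO.locMat v (P.lift (P.resMat (P.placeIdem v * a') (P.placeIdem v * b')
          (P.placeIdem v * x) (P.placeIdem v * d)))).val -
            oMat v (P.oBox (P.placeIdem v * a') (P.placeIdem v * b') (P.placeIdem v * x)
              (P.placeIdem v * d)))) i j =
        ((z * g).val - (LT.CO.locMat v (P.lift (P.resMat (P.placeIdem v * a')
          (P.placeIdem v * b') (P.placeIdem v * x) (P.placeIdem v * d)))).val) i j by
      simp only [Matrix.sub_apply, Matrix.add_apply, Matrix.neg_apply]; ring] at h)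
  rw [show K⁻¹ * g = z⁻¹ * (z * (K⁻¹ * g)) by group,
    show z * (K⁻¹ * g) = K⁻¹ * (z * g) by
      rw [← mul_assoc, ← Subgroup.mem_center_iff.mp hz K⁻¹, mul_assoc]]
  refine mul_mem (Subgroup.mem_sup_right (inv_mem hz)) (Subgroup.mem_sup_left ?_)
  rw [Box.locCongr_eq hP.pos]
  exact hc

end FermatAgent.LTG.Box

end
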