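import Mathlib
import Fermat.Agent.LT.General.Level.SplitBox
import Fermat.Agent.LT.General.Geom.LocalData

set_option autoImplicit false

/-!
# The local operators of the level

At a place of `F` with three places over one of `K` the box group is that of the place below.
-/

noncomputable section

open NumberField IsDedekindDomain WithZero Matrix
open FermatAgent.LT (galInt galPlace loc LCos GLv lKer compAt locInt)

namespace FermatAgent.LTG

local notation "Qb" => AlgebraicClosure ℚ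

namespace Setup.Level

variable {S : Setup} (D : S.Level) {σ : S.F ≃+* S.F}

/-- The exponent of the level is the same at a moved place and below it. -/
theorem exp_lvl_moved (hσ : S.IsGalGen σ) {v : HeightOneSpectrum (𝓞 S.K)} (u : S.OverK v)
    (hne : galPlace σ u.1 ≠ u.1) : exp (-(LT.CO.lvl (D.levelIdeal S.F) u.1 : ℤ)) =
      exp (-(LT.CO.lvl (D.levelIdeal S.K) v : ℤ)) := by
  rw [← Box.valued_natCast_N (D.boxF σ) D.lvl_pos u.1, ← Box.valued_natCast_N D.boxK D.lvl_pos v,
    ← valued_incl_moved hσ u hne, S.inclOver_loc]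
  simp

theorem smallM_incl_iff (hσ : S.IsGalGen σ) {v : HeightOneSpectrum (𝓞 S.K)} (u : S.OverK v)
    (hne : galPlace σ u.1 ≠ u.1) (g : GLv v) :
    LT.CO.SmallM u.1 (LT.CO.lvl (D.levelIdeal S.F) u.1)
        ((Matrix.GeneralLinearGroup.map (S.inclOver u) g : GLv u.1).val - 1) ↔
      LT.CO.SmallM v (LT.CO.lvl (D.levelIdeal S.K) v) (g.val - 1) := by
  refine forall_congr' fun i => forall_congr' fun j => ?_
  rw [D.exp_lvl_moved hσ u hne, ← valued_incl_moved hσ u hne ((g.val - 1) i j)]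
  simp only [Matrix.sub_apply, Matrix.GeneralLinearGroup.map_apply, map_sub, Matrix.one_apply,
    apply_ite (S.inclOver u), map_one, map_zero]

theorem mem_locCongr_moved (hσ : S.IsGalGen σ) {v : HeightOneSpectrum (𝓞 S.K)} (u : S.OverK v)
    (hne : galPlace σ u.1 ≠ u.1) (g : GLv v) :
    (Matrix.GeneralLinearGroup.map (S.inclOver u) g : GLv u.1) ∈
        LT.locCongr (D.levelIdeal S.F) u.1 ↔ g ∈ LT.locCongr (D.levelIdeal S.K) v := by
  rw [Box.locCongr_eq (P := D.boxF σ) D.lvl_pos, Box.locCongr_eq (P := D.boxK) D.lvl_pos]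
  refine and_congr (D.smallM_incl_iff hσ u hne g) ?_
  rw [← map_inv]
  exact D.smallM_incl_iff hσ u hne g⁻¹

theorem inclGL_moved_surjective (hσ : S.IsGalGen σ) {v : HeightOneSpectrum (𝓞 S.K)}
    (u : S.OverK v) (hne : galPlace σ u.1 ≠ u.1) (x : GLv u.1) :
    ∃ g : GLv v, Matrix.GeneralLinearGroup.map (S.inclOver u) g = x := by
  let e := RingEquiv.ofBijective (S.inclOver u) (bijective_inclOver hσ u hne)
  refine ⟨Matrix.GeneralLinearGroup.map e.symm.toRingHom x,
    Matrix.GeneralLinearGroup.ext fun i j => ?_⟩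
  exact e.apply_symm_apply _

theorem inclGL_moved_injective {v : HeightOneSpectrum (𝓞 S.K)} (u : S.OverK v) :
    Function.Injective
      (Matrix.GeneralLinearGroup.map (S.inclOver u) : GLv v →* GLv u.1) := fun _ _ e =>
  Units.ext (Matrix.ext fun i j => (S.inclOver u).injective
    (congrArg (fun x : GLv u.1 => x i j) e))

theorem map_locLevel_moved (hσ : S.IsGalGen σ) {v : HeightOneSpectrum (𝓞 S.K)} (u : S.OverK v)
    (hne : galPlace σ u.1 ≠ u.1) :
    (LT.locLevel (D.levelIdeal S.K) v).map (Matrix.GeneralLinearGroup.map (S.inclOver u)) =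
      LT.locLevel (D.levelIdeal S.F) u.1 := by
  rw [LT.locLevel, LT.locLevel, Subgroup.map_sup]
  congr 1
  · refine le_antisymm ?_ fun x hx => ?_
    · rintro _ ⟨g, hg, rfl⟩
      exact (D.mem_locCongr_moved hσ u hne g).mpr hg
    · obtain ⟨g, rfl⟩ := inclGL_moved_surjective hσ u hne x
      exact ⟨g, (D.mem_locCongr_moved hσ u hne g).mp hx, rfl⟩
  · refine le_antisymm ?_ fun x hx => ?_
    · rintro _ ⟨g, hg, rfl⟩
      rw [Subgroup.mem_center_iff]
      intro y
      obtain ⟨h, rfl⟩ := inclGL_moved_surjective hσ u hne y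
      rw [← map_mul, ← map_mul, Subgroup.mem_center_iff.mp hg]
    · obtain ⟨g, rfl⟩ := inclGL_moved_surjective hσ u hne x
      refine ⟨g, Subgroup.mem_center_iff.mpr fun y => inclGL_moved_injective u ?_, rfl⟩
      rw [map_mul, map_mul, Subgroup.mem_center_iff.mp hx]

theorem inclLCos_moved_eq_iff (hσ : S.IsGalGen σ) {v : HeightOneSpectrum (𝓞 S.K)} (u : S.OverK v)
    (hne : galPlace σ u.1 ≠ u.1) (g h : GLv v) :
    ((Matrix.GeneralLinearGroup.map (S.inclOver u) g : GLv u.1) : LCos (D.levelIdeal S.F) u.1) =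
      ((Matrix.GeneralLinearGroup.map (S.inclOver u) h : GLv u.1) : LCos (D.levelIdeal S.F) u.1) ↔
    (g : LCos (D.levelIdeal S.K) v) = (h : LCos (D.levelIdeal S.K) v) := by
  rw [QuotientGroup.eq, QuotientGroup.eq, ← map_inv, ← map_mul, ← D.map_locLevel_moved hσ u hne]
  exact Subgroup.mem_map_iff_mem (inclGL_moved_injective u)

theorem inclLCos_moved_mk (hσ : S.IsGalGen σ) {v : HeightOneSpectrum (𝓞 S.K)} (u : S.OverK v)
    (hne : galPlace σ u.1 ≠ u.1) (g : GLv v) :
    D.inclLCos u (g : LCos (D.levelIdeal S.K) v) =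
      ((Matrix.GeneralLinearGroup.map (S.inclOver u) g : GLv u.1) :
        LCos (D.levelIdeal S.F) u.1) :=
  (D.inclLCos_moved_eq_iff hσ u hne _ g).mpr (QuotientGroup.out_eq' _)

theorem levelIdeal_le_comap : D.levelIdeal S.K ≤ (D.levelIdeal S.F).comap S.inclInt :=
  (Ideal.span_singleton_le_iff_mem _).mpr (by
    rw [Ideal.mem_comap, map_natCast]
    exact Ideal.subset_span rfl)

variable (σ) in
/-- The residual matrices below a moved place, at it. -/
def resUp (u : HeightOneSpectrum (𝓞 S.F))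
    (M : Matrix (Fin 2) (Fin 2) (𝓞 S.K ⧸ D.boxK.lvlIdeal)) :
    Matrix (Fin 2) (Fin 2) (𝓞 S.F ⧸ (D.boxF σ).lvlIdeal) :=
  (D.boxF σ).theta ((D.boxF σ).placeIdem u)
    (M.map (Ideal.quotientMap (D.levelIdeal S.F) S.inclInt D.levelIdeal_le_comap))

theorem resUp_resMat (u : HeightOneSpectrum (𝓞 S.F)) (a b c d : 𝓞 S.K) :
    D.resUp σ u (D.boxK.resMat a b c d) = (D.boxF σ).resMat
      ((D.boxF σ).placeIdem u * S.inclInt a) ((D.boxF σ).placeIdem u * S.inclInt b)
      ((D.boxF σ).placeIdem u * S.inclInt c) ((D.boxF σ).placeIdem u * S.inclInt d) := by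
  rw [resUp, ← Box.theta_resMat]
  refine congrArg _ (Matrix.ext fun i j => ?_)
  fin_cases i <;> fin_cases j <;> simp [Box.resMat, Ideal.quotientMap_mk]

variable {v : HeightOneSpectrum (𝓞 S.K)} (u : S.OverK v)

/-- Integers congruent at a moved place, times the idempotent of the place. -/
theorem placeIdem_mul_sub_mem {x y : 𝓞 S.F}
    (h : Valued.v (loc u.1 ((x - y : 𝓞 S.F) : S.F)) ≤
      exp (-(LT.CO.lvl (D.levelIdeal S.F) u.1 : ℤ))) :
    (D.boxF σ).placeIdem u.1 * x - (D.boxF σ).placeIdem u.1 * y ∈ (D.boxF σ).lvlIdeal := by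
  refine (Box.mem_lvlIdeal_iff (P := D.boxF σ) D.lvl_pos).mpr fun w => ?_
  rw [← mul_sub, RingOfIntegers.coe_eq_algebraMap, map_mul, map_mul, map_mul,
    ← RingOfIntegers.coe_eq_algebraMap, ← RingOfIntegers.coe_eq_algebraMap]
  rcases eq_or_ne w u.1 with rfl | hw
  · exact mul_le_of_le_one_of_le (LT.CO.valued_int_le_one _) h
  · exact mul_le_of_le_of_le_one ((Box.placeIdem_spec (P := D.boxF σ) D.lvl_pos u.1).2 w hw)
      (LT.CO.valued_int_le_one _)

theorem placeIdemK_spec :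
    Valued.v (loc v ((D.boxK.placeIdem v : 𝓞 S.K) : S.K) - 1) ≤
      exp (-(LT.CO.lvl (D.levelIdeal S.K) v : ℤ)) :=
  (Box.placeIdem_spec (P := D.boxK) D.lvl_pos v).1

variable (hσ : S.IsGalGen σ) (hne : galPlace σ u.1 ≠ u.1)
include hσ hne

theorem valued_inclInt_moved (x : 𝓞 S.K) :
    Valued.v (loc u.1 ((S.inclInt x : 𝓞 S.F) : S.F)) = Valued.v (loc v (x : S.K)) := by
  rw [← valued_incl_moved hσ u hne, S.inclOver_loc, coe_inclInt]

theorem placeIdem_mul_mem_boxBF (x : 𝓞 S.F) : (D.boxF σ).placeIdem u.1 * x ∈ S.boxBF σ := by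
  rw [mem_boxBF_iff]
  intro w _ hf
  have hfix := IsGalGen.galPlace_of_isFixed hσ hf
  have hw : w ≠ u.1 := by rintro rfl; exact hne hfix
  set e := (D.boxF σ).placeIdem u.1
  have he : Valued.v (loc w ((e * x : 𝓞 S.F) : S.F)) ≤
      exp (-(LT.CO.lvl (D.levelIdeal S.F) w : ℤ)) := by
    rw [RingOfIntegers.coe_eq_algebraMap, map_mul, map_mul, map_mul,
      ← RingOfIntegers.coe_eq_algebraMap]
    exact mul_le_of_le_of_le_one ((Box.placeIdem_spec (P := D.boxF σ) D.lvl_pos u.1).2 w hw)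
      (LT.CO.valued_int_le_one _)
  have hgal : ∀ z : 𝓞 S.F, Valued.v (loc w ((galInt σ z : 𝓞 S.F) : S.F)) =
      Valued.v (loc w (z : S.F)) := fun z => by
    have h : ∀ w' : HeightOneSpectrum (𝓞 S.F), w' = w →
        Valued.v (loc w' (z : S.F)) = Valued.v (loc w (z : S.F)) := fun w' h => by rw [h]
    rw [valued_galInt, h _ hfix]
  refine le_trans ?_ (D.exp_lvl_le_three w)
  simp only [map_add]
  refine (Valuation.map_add _ _ _).trans (max_le ((Valuation.map_add _ _ _).trans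
    (max_le he ?_)) ?_) <;> simp only [← RingOfIntegers.coe_eq_algebraMap, hgal] <;> exact he

theorem placeIdemK_mul_mem_boxBK (y : 𝓞 S.K) : D.boxK.placeIdem v * y ∈ S.boxBK := by
  rw [mem_boxBK_iff]
  intro v' _ hf
  have hv : v' ≠ v := by
    rintro rfl
    exact hne ((isFixed_iff hσ).mp hf u)
  refine le_trans ?_ (D.exp_lvl_le_three v')
  rw [RingOfIntegers.coe_eq_algebraMap, map_mul, map_mul, map_mul,
    ← RingOfIntegers.coe_eq_algebraMap]
  exact mul_le_of_le_of_le_one ((Box.placeIdem_spec (P := D.boxK) D.lvl_pos v).2 v' hv)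
    (LT.CO.valued_int_le_one _)

/-- The relative trace of a multiple of the idempotent is the integer itself at the place. -/
theorem trace_placeIdem_near (x : 𝓞 S.F) {r : 𝓞 S.K}
    (hr : S.inclInt r = (D.boxF σ).placeIdem u.1 * x + galInt σ ((D.boxF σ).placeIdem u.1 * x) +
      galInt σ (galInt σ ((D.boxF σ).placeIdem u.1 * x))) :
    Valued.v (loc u.1 ((S.inclInt r - x : 𝓞 S.F) : S.F)) ≤
      exp (-(LT.CO.lvl (D.levelIdeal S.F) u.1 : ℤ)) := by
  obtain ⟨h2, h3⟩ := galPlace_moved hσ hne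
  set e := (D.boxF σ).placeIdem u.1
  have hs := Box.placeIdem_spec (P := D.boxF σ) D.lvl_pos u.1
  have hoff : ∀ w, w ≠ u.1 → Valued.v (loc w ((e * x : 𝓞 S.F) : S.F)) ≤
      exp (-(LT.CO.lvl (D.levelIdeal S.F) w : ℤ)) := fun w hw => by
    rw [RingOfIntegers.coe_eq_algebraMap, map_mul, map_mul, map_mul,
      ← RingOfIntegers.coe_eq_algebraMap]
    exact mul_le_of_le_of_le_one (hs.2 w hw) (LT.CO.valued_int_le_one _)
  rw [hr, show e * x + galInt σ (e * x) + galInt σ (galInt σ (e * x)) - x =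
    (e - 1) * x + (galInt σ (e * x) + galInt σ (galInt σ (e * x))) by ring,
    RingOfIntegers.coe_eq_algebraMap]
  simp only [map_add]
  simp only [← RingOfIntegers.coe_eq_algebraMap]
  refine (Valuation.map_add _ _ _).trans (max_le ?_
    ((Valuation.map_add _ _ _).trans (max_le ?_ ?_)))
  · rw [RingOfIntegers.coe_eq_algebraMap, map_mul, map_mul, map_mul, map_sub, map_one, map_sub,
      map_one, ← RingOfIntegers.coe_eq_algebraMap]
    exact mul_le_of_le_of_le_one hs.1 (LT.CO.valued_int_le_one _)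
  · rw [valued_galInt]
    exact (hoff _ hne).trans_eq (by rw [D.exp_lvl_galPlace])
  · rw [valued_galInt, valued_galInt]
    exact (hoff _ h2).trans_eq (by rw [D.exp_lvl_galPlace, D.exp_lvl_galPlace])

omit hne in
theorem placeIdem_mul_incl_mem_boxAF {a : 𝓞 S.K} (ha : a ∈ D.boxAK) :
    (D.boxF σ).placeIdem u.1 * S.inclInt a ∈ D.boxAF σ := fun b _ => by
  obtain ⟨r, hr, htr⟩ := IsGalGen.trace_int hσ ((D.boxF σ).placeIdem u.1 * S.inclInt a * b)
  obtain ⟨s, hs, -⟩ := IsGalGen.trace_int hσ ((D.boxF σ).placeIdem u.1 * b)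
  have e : r = a * s := S.inclInt_injective (by
    rw [hr, map_mul S.inclInt, hs]
    simp only [map_mul, IsGalGen.galInt_inclInt hσ]
    ring)
  rw [htr, e]
  exact ha s

theorem exists_boxAK_near {a : 𝓞 S.F} (ha : a ∈ D.boxAF σ) :
    ∃ a' ∈ D.boxAK, Valued.v (loc u.1 ((S.inclInt a' - a : 𝓞 S.F) : S.F)) ≤
      exp (-(LT.CO.lvl (D.levelIdeal S.F) u.1 : ℤ)) := by
  set e := (D.boxF σ).placeIdem u.1
  obtain ⟨r, hr, -⟩ := IsGalGen.trace_int hσ (e * a)
  refine ⟨D.boxK.placeIdem v * r, fun o => ?_, ?_⟩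
  · obtain ⟨r', hr', htr⟩ :=
      IsGalGen.trace_int hσ (e * a * S.inclInt (D.boxK.placeIdem v * o))
    have he : r' = D.boxK.placeIdem v * r * o := S.inclInt_injective (by
      rw [hr']
      simp only [map_mul, IsGalGen.galInt_inclInt hσ, hr]
      ring)
    rw [← he, ← htr, mul_comm e a, mul_assoc]
    exact ha _ (D.placeIdem_mul_mem_boxBF u hσ hne _)
  · rw [map_mul, show S.inclInt (D.boxK.placeIdem v) * S.inclInt r - a =
      S.inclInt (D.boxK.placeIdem v - 1) * S.inclInt r + (S.inclInt r - a) by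
        rw [map_sub, map_one]; ring, RingOfIntegers.coe_eq_algebraMap, map_add, map_add,
      map_mul, map_mul, ← RingOfIntegers.coe_eq_algebraMap,
      ← RingOfIntegers.coe_eq_algebraMap, ← RingOfIntegers.coe_eq_algebraMap]
    refine (Valuation.map_add _ _ _).trans (max_le ?_ (D.trace_placeIdem_near u hσ hne a hr))
    rw [map_mul]
    refine mul_le_of_le_of_le_one ?_ (LT.CO.valued_int_le_one _)
    rw [valued_inclInt_moved u hσ hne, D.exp_lvl_moved hσ u hne, RingOfIntegers.coe_eq_algebraMap,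
      map_sub, map_sub, map_one, map_one, ← RingOfIntegers.coe_eq_algebraMap]
    exact D.placeIdemK_spec

theorem exists_boxBK_near {b : 𝓞 S.F} :
    ∃ b' ∈ S.boxBK, Valued.v (loc u.1 ((S.inclInt b' - b : 𝓞 S.F) : S.F)) ≤
      exp (-(LT.CO.lvl (D.levelIdeal S.F) u.1 : ℤ)) := by
  obtain ⟨r, hr, -⟩ := IsGalGen.trace_int hσ ((D.boxF σ).placeIdem u.1 * b)
  refine ⟨D.boxK.placeIdem v * r, D.placeIdemK_mul_mem_boxBK u hσ hne r, ?_⟩
  rw [map_mul, show S.inclInt (D.boxK.placeIdem v) * S.inclInt r - b =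
      S.inclInt (D.boxK.placeIdem v - 1) * S.inclInt r + (S.inclInt r - b) by
        rw [map_sub, map_one]; ring, RingOfIntegers.coe_eq_algebraMap, map_add, map_add,
    map_mul, map_mul, ← RingOfIntegers.coe_eq_algebraMap,
    ← RingOfIntegers.coe_eq_algebraMap, ← RingOfIntegers.coe_eq_algebraMap]
  refine (Valuation.map_add _ _ _).trans (max_le ?_ (D.trace_placeIdem_near u hσ hne b hr))
  rw [map_mul]
  refine mul_le_of_le_of_le_one ?_ (LT.CO.valued_int_le_one _)
  rw [valued_inclInt_moved u hσ hne, D.exp_lvl_moved hσ u hne, RingOfIntegers.coe_eq_algebraMap,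
    map_sub, map_sub, map_one, map_one, ← RingOfIntegers.coe_eq_algebraMap]
  exact D.placeIdemK_spec

theorem resUp_bijOn : Set.BijOn (D.resUp σ u.1) (D.boxK.locRes v) ((D.boxF σ).locRes u.1) := by
  have hF := (Box.placeIdem_spec (P := D.boxF σ) D.lvl_pos u.1).isIdem D.lvl_pos
  have hK := (Box.placeIdem_spec (P := D.boxK) D.lvl_pos v).isIdem D.lvl_pos
  have hSK := D.isSplit_boxK
  refine ⟨?_, ?_, ?_⟩
  · intro M hM
    obtain ⟨a, ha, b, _, c, _, d, hd, rfl⟩ := hSK.locRes_subset v hM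
    have hmem := D.resUp_resMat (σ := σ) u.1 a b c d
    refine ⟨D.resUp σ u.1 (D.boxK.resMat a b c d), ?_, ?_⟩
    · rw [hmem]
      exact ⟨_, D.placeIdem_mul_incl_mem_boxAF u hσ ha, _,
        D.placeIdem_mul_mem_boxBF u hσ hne _, _, D.placeIdem_mul_mem_boxBF u hσ hne _, _,
        D.placeIdem_mul_incl_mem_boxAF u hσ hd, rfl⟩
    · rw [resUp, Box.theta_theta, Box.theta_congr hF]
  · intro M hM N hN h
    refine Matrix.ext fun i j => ?_
    obtain ⟨x, hx⟩ := Ideal.Quotient.mk_surjective (M i j - N i j)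
    have hfix : ∀ R ∈ D.boxK.locRes v, D.boxK.theta (D.boxK.placeIdem v) R = R := fun R hR =>
      Box.theta_fix hK hR
    have h1 : Ideal.Quotient.mk D.boxK.lvlIdeal (D.boxK.placeIdem v * x) =
        Ideal.Quotient.mk D.boxK.lvlIdeal x := by
      have h2 : D.boxK.theta (D.boxK.placeIdem v) M i j - D.boxK.theta (D.boxK.placeIdem v) N i j =
          Ideal.Quotient.mk D.boxK.lvlIdeal (D.boxK.placeIdem v) * (M i j - N i j) := by
        simp only [Box.theta, Matrix.add_apply, Matrix.smul_apply, Matrix.sub_apply, smul_eq_mul]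
        ring
      rw [hfix M hM, hfix N hN, ← hx, ← map_mul] at h2
      exact h2.symm
    have h3 : (D.boxF σ).placeIdem u.1 * S.inclInt x ∈ (D.boxF σ).lvlIdeal := by
      have h4 := congrFun (congrFun h i) j
      simp only [resUp, Box.theta, Matrix.add_apply, Matrix.smul_apply, Matrix.sub_apply,
        smul_eq_mul, Matrix.map_apply, add_right_inj] at h4
      rw [← sub_eq_zero, ← mul_sub, sub_sub_sub_cancel_right, ← map_sub, ← hx,
        Ideal.quotientMap_mk, ← map_mul] at h4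
      exact Ideal.Quotient.eq_zero_iff_mem.mp h4
    have h5 : x ∈ D.boxK.lvlIdeal := by
      refine (Box.mem_lvlIdeal_iff (P := D.boxK) D.lvl_pos).mpr fun v' => ?_
      rcases eq_or_ne v' v with rfl | hv'
      · have h6 := Box.valued_le_of_mem (D.boxF σ) D.lvl_pos h3 u.1
        rw [RingOfIntegers.coe_eq_algebraMap, map_mul, map_mul, map_mul,
          ← RingOfIntegers.coe_eq_algebraMap, ← RingOfIntegers.coe_eq_algebraMap,
          valued_inclInt_moved u hσ hne, D.exp_lvl_moved hσ u hne] at h6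
        have hs := (Box.placeIdem_spec (P := D.boxF σ) D.lvl_pos u.1).1
        rcases le_or_gt (exp (-(LT.CO.lvl (D.levelIdeal S.F) u.1 : ℤ))) 1 with h7 | h7
        swap
        · exact absurd h7 (not_lt.mpr (by rw [← exp_zero, exp_le_exp]; omega))
        rcases eq_or_lt_of_le h7 with h8 | h8
        · refine (LT.CO.valued_int_le_one x).trans_eq ?_
          rw [← h8, D.exp_lvl_moved hσ u hne]
        · have h9 : Valued.v (loc u.1 (((D.boxF σ).placeIdem u.1 : 𝓞 S.F) : S.F)) = 1 := by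
            have := Valuation.map_one_add_of_lt (Valued.v) (hs.trans_lt h8)
            rwa [add_sub_cancel] at this
          rwa [h9, one_mul] at h6
      · have h6 := Box.valued_le_of_mem D.boxK D.lvl_pos
          (Ideal.Quotient.eq.mp h1.symm) v'
        rw [show ((x - D.boxK.placeIdem v * x : 𝓞 S.K) : S.K) =
          (x : S.K) - (D.boxK.placeIdem v : S.K) * (x : S.K) by push_cast; rfl, map_sub,
          map_mul] at h6
        have h7 : Valued.v (loc v' ((D.boxK.placeIdem v : 𝓞 S.K) : S.K) * loc v' (x : S.K)) ≤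
            exp (-(LT.CO.lvl D.boxK.lvlIdeal v' : ℤ)) := by
          rw [map_mul]
          exact mul_le_of_le_of_le_one
            ((Box.placeIdem_spec (P := D.boxK) D.lvl_pos v).2 v' hv') (LT.CO.valued_int_le_one x)
        have h8 := (Valuation.map_add _ _ _).trans (max_le h6 h7)
        rwa [sub_add_cancel] at h8
    exact sub_eq_zero.mp (hx.symm.trans (Ideal.Quotient.eq_zero_iff_mem.mpr h5))
  · intro N hN
    have hNfix := Box.theta_fix hF hN
    obtain ⟨a, ha, b, _, c, _, d, hd, rfl⟩ := (D.isSplit_boxF hσ).locRes_subset u.1 hN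
    obtain ⟨a', ha', ea⟩ := D.exists_boxAK_near u hσ hne ha
    obtain ⟨b', hb', eb⟩ := D.exists_boxBK_near u hσ hne (b := b)
    obtain ⟨c', hc', ec⟩ := D.exists_boxBK_near u hσ hne (b := c)
    obtain ⟨d', hd', ed⟩ := D.exists_boxAK_near u hσ hne hd
    refine ⟨D.boxK.theta (D.boxK.placeIdem v) (D.boxK.resMat a' b' c' d'),
      ⟨_, ⟨a', ha', b', hb', c', hc', d', hd', rfl⟩, rfl⟩, ?_⟩
    rw [← hNfix, Box.theta_resMat, Box.theta_resMat, D.resUp_resMat]
    have hone : ∀ {x' : 𝓞 S.K} {x : 𝓞 S.F},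
        Valued.v (loc u.1 ((S.inclInt x' - x : 𝓞 S.F) : S.F)) ≤
          exp (-(LT.CO.lvl (D.levelIdeal S.F) u.1 : ℤ)) →
        Ideal.Quotient.mk (D.boxF σ).lvlIdeal
            ((D.boxF σ).placeIdem u.1 * S.inclInt (D.boxK.placeIdem v * x')) =
          Ideal.Quotient.mk (D.boxF σ).lvlIdeal ((D.boxF σ).placeIdem u.1 * x) := by
      intro x' x hx
      refine Ideal.Quotient.eq.mpr (D.placeIdem_mul_sub_mem u ?_)
      rw [map_mul, show S.inclInt (D.boxK.placeIdem v) * S.inclInt x' - x =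
          S.inclInt (D.boxK.placeIdem v - 1) * S.inclInt x' + (S.inclInt x' - x) by
            rw [map_sub, map_one]; ring, RingOfIntegers.coe_eq_algebraMap, map_add, map_add,
        map_mul, map_mul, ← RingOfIntegers.coe_eq_algebraMap,
        ← RingOfIntegers.coe_eq_algebraMap, ← RingOfIntegers.coe_eq_algebraMap]
      refine (Valuation.map_add _ _ _).trans (max_le ?_ hx)
      rw [map_mul]
      refine mul_le_of_le_of_le_one ?_ (LT.CO.valued_int_le_one _)
      rw [valued_inclInt_moved u hσ hne, D.exp_lvl_moved hσ u hne,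
        RingOfIntegers.coe_eq_algebraMap, map_sub, map_sub, map_one, map_one,
        ← RingOfIntegers.coe_eq_algebraMap]
      exact D.placeIdemK_spec
    refine Matrix.ext fun i j => ?_
    have hA := hone ea
    have hB := hone eb
    have hC := hone ec
    have hD := hone ed
    simp only [map_mul] at hA hB hC hD
    fin_cases i <;> fin_cases j <;> simp [Box.resMat, hA, hB, hC, hD]

theorem chi_resUp {M : Matrix (Fin 2) (Fin 2) (𝓞 S.K ⧸ D.boxK.lvlIdeal)}
    (hM : M ∈ D.boxK.locRes v) : (D.boxF σ).chi (D.resUp σ u.1 M) = D.boxK.chi M := by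
  obtain ⟨_, ⟨a, ha, b, hb, c, hc, d, hd, rfl⟩, rfl⟩ := hM
  rw [Box.theta_resMat, D.resUp_resMat, D.isGood_boxK.chi_resMat
      (D.placeIdemK_mul_mem_boxBK u hσ hne b),
    (D.isGood_boxF σ).chi_resMat (D.placeIdem_mul_mem_boxBF u hσ hne _)]
  set e := D.boxK.placeIdem v
  obtain ⟨r, hr, htr⟩ := IsGalGen.trace_int hσ ((D.boxF σ).placeIdem u.1 * S.inclInt (e * b))
  obtain ⟨s, hs, -⟩ := IsGalGen.trace_int hσ ((D.boxF σ).placeIdem u.1 * 1)
  have hrs : r = e * b * s := S.inclInt_injective (by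
    rw [hr, map_mul S.inclInt (e * b) s, hs]
    simp only [map_mul, IsGalGen.galInt_inclInt hσ, mul_one]
    ring)
  rw [htr]
  refine ratChar_congr ?_
  have hmem : r - e * b ∈ D.boxK.lvlIdeal := by
    refine (Box.mem_lvlIdeal_iff (P := D.boxK) D.lvl_pos).mpr fun v' => ?_
    rw [hrs, show ((e * b * s - e * b : 𝓞 S.K) : S.K) =
      (e : S.K) * ((b : S.K) * ((s : S.K) - 1)) by push_cast; ring, map_mul, map_mul, map_mul,
      map_mul, map_sub, map_one]
    rcases eq_or_ne v' v with rfl | hv'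
    · refine mul_le_of_le_one_of_le (LT.CO.valued_int_le_one _)
        (mul_le_of_le_one_of_le (LT.CO.valued_int_le_one _) ?_)
      have h := D.trace_placeIdem_near u hσ hne 1 hs
      rwa [← map_one S.inclInt, ← map_sub, valued_inclInt_moved u hσ hne,
        D.exp_lvl_moved hσ u hne, RingOfIntegers.coe_eq_algebraMap, map_sub, map_sub, map_one,
        map_one, ← RingOfIntegers.coe_eq_algebraMap] at h
    · refine mul_le_of_le_of_le_one ((Box.placeIdem_spec (P := D.boxK) D.lvl_pos v).2 v' hv') ?_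
      refine mul_le_one' (LT.CO.valued_int_le_one _) ((Valuation.map_sub _ _ _).trans
        (max_le (LT.CO.valued_int_le_one _) (by rw [map_one])))
  obtain ⟨o, ho⟩ := Ideal.mem_span_singleton.mp hmem
  rw [← map_sub, ho]
  exact dvd_trace_natCast_mul D.M₁_dvd_lvl o

theorem lift_resUp {M : Matrix (Fin 2) (Fin 2) (𝓞 S.K ⧸ D.boxK.lvlIdeal)}
    (hM : M ∈ D.boxK.locRes v) :
    (Matrix.GeneralLinearGroup.map (S.inclOver u) (compAt v (D.boxK.lift M)) : GLv u.1)⁻¹ *
        compAt u.1 ((D.boxF σ).lift (D.resUp σ u.1 M)) ∈ LT.locCongr (D.levelIdeal S.F) u.1 := by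
  have hup := (D.resUp_bijOn u hσ hne).mapsTo hM
  obtain ⟨_, ⟨a, ha, b, hb, c, hc, d, hd, rfl⟩, rfl⟩ := hM
  rw [Box.theta_resMat] at hup ⊢
  rw [D.resUp_resMat] at hup ⊢
  set e := D.boxK.placeIdem v
  set f := (D.boxF σ).placeIdem u.1
  have h0 := D.isSplit_boxK.theta_mem
    ((Box.placeIdem_spec (P := D.boxK) D.lvl_pos v).isIdem D.lvl_pos)
    (M := D.boxK.resMat a b c d) ⟨a, ha, b, hb, c, hc, d, hd, rfl⟩
  rw [Box.theta_resMat] at h0
  obtain ⟨k1, k2⟩ := D.isGood_boxK.near_lift' h0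
    (o := D.boxK.oBox (e * a) (e * b) (e * c) (e * d)) rfl v
  obtain ⟨f1, f2⟩ := (D.isGood_boxF σ).near_lift' ((D.isSplit_boxF hσ).locRes_subset u.1 hup)
    (o := (D.boxF σ).oBox (f * S.inclInt (e * a)) (f * S.inclInt (e * b)) (f * S.inclInt (e * c))
      (f * S.inclInt (e * d))) rfl u.1
  rw [Box.locCongr_eq (P := D.boxF σ) D.lvl_pos]
  have hi : (Matrix.GeneralLinearGroup.map (S.inclOver u) (compAt v (D.boxK.lift
      (D.boxK.resMat (e * a) (e * b) (e * c) (e * d)))) : GLv u.1) ∈ LT.CO.locCongr u.1 0 := by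
    refine LT.CO.mem_locCongr_zero_of_det (LT.CO.smallM_of_le_one fun i j => ?_) ?_
    · rw [Matrix.GeneralLinearGroup.map_apply, valued_incl_moved hσ u hne]
      exact (LT.CO.smallM_of_mem k1).le_one i j
    · rw [show ((Matrix.GeneralLinearGroup.map (S.inclOver u) (compAt v (D.boxK.lift
          (D.boxK.resMat (e * a) (e * b) (e * c) (e * d)))) : GLv u.1)).val.det =
          S.inclOver u (compAt v (D.boxK.lift
            (D.boxK.resMat (e * a) (e * b) (e * c) (e * d)))).val.det from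
        (RingHom.map_det (S.inclOver u) _).symm, valued_incl_moved hσ u hne]
      exact LT.CO.valued_det_eq_one k1
  refine LT.CO.inv_mul_mem_locCongr hi f1 fun i j => ?_
  have hk := k2 i j
  rw [← D.exp_lvl_moved hσ u hne, ← valued_incl_moved hσ u hne, Matrix.sub_apply, map_sub,
    oMat_apply, S.inclOver_loc, ← coe_inclInt] at hk
  have hff := f2 i j
  rw [Matrix.sub_apply, oMat_apply] at hff
  rw [Matrix.sub_apply, Matrix.GeneralLinearGroup.map_apply]
  have hoo : Valued.v (loc u.1 (((D.boxF σ).oBox (f * S.inclInt (e * a)) (f * S.inclInt (e * b))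
      (f * S.inclInt (e * c)) (f * S.inclInt (e * d)) i j : 𝓞 S.F) : S.F) -
      loc u.1 ((S.inclInt (D.boxK.oBox (e * a) (e * b) (e * c) (e * d) i j) : 𝓞 S.F) : S.F)) ≤
      exp (-(LT.CO.lvl (D.levelIdeal S.F) u.1 : ℤ)) := by
    have hf : ∀ x : 𝓞 S.F, Valued.v (loc u.1 ((f : S.F) * (x : S.F)) - loc u.1 (x : S.F)) ≤
        exp (-(LT.CO.lvl (D.levelIdeal S.F) u.1 : ℤ)) := fun x => by
      rw [map_mul, ← sub_one_mul, map_mul]
      exact mul_le_of_le_of_le_one (Box.placeIdem_spec (P := D.boxF σ) D.lvl_pos u.1).1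
        (LT.CO.valued_int_le_one x)
    have hM2 : ∀ x : 𝓞 S.F, Valued.v (loc u.1 ((((S.m ^ D.l : ℕ) : 𝓞 S.F) * (f * x) : 𝓞 S.F) : S.F) -
        loc u.1 ((((S.m ^ D.l : ℕ) : 𝓞 S.F) * x : 𝓞 S.F) : S.F)) ≤
        exp (-(LT.CO.lvl (D.levelIdeal S.F) u.1 : ℤ)) := fun x => by
      rw [mul_left_comm]
      simpa using hf (((S.m ^ D.l : ℕ) : 𝓞 S.F) * x)
    fin_cases i <;> fin_cases j
    · simpa [Box.oBox] using hf (S.inclInt (e * a))
    · simpa [Box.oBox] using hf (S.inclInt (e * b))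
    · simpa [Box.oBox] using hM2 (S.inclInt (e * c))
    · simpa [Box.oBox] using hf (S.inclInt (e * d))
  have := (Valuation.map_add _ _ _).trans (max_le ((Valuation.map_add _ _ _).trans
    (max_le hff hoo)) (le_of_eq_of_le (Valuation.map_neg _ _) hk))
  refine le_of_eq_of_le (congrArg _ ?_) this
  simp only [show compAt u.1 = LT.CO.locMat u.1 from rfl, show compAt v = LT.CO.locMat v from rfl]
  ring

/-- The kernels at a moved place are those below. -/
theorem lKer_locOp_moved (a b : LCos (D.levelIdeal S.K) v) :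
    lKer ((D.boxF σ).locOp u.1) (D.inclLCos u a) (D.inclLCos u b) =
      lKer (D.boxK.locOp v) a b := by
  classical
  have := @Box.finite_locRes _ _ _ (D.boxF σ) ⟨D.lvl_pos⟩ u.1
  have := @Box.finite_locRes _ _ _ D.boxK ⟨D.lvl_pos⟩ v
  obtain ⟨g, rfl⟩ := QuotientGroup.mk_surjective a
  obtain ⟨h, rfl⟩ := QuotientGroup.mk_surjective b
  rw [lKer, lKer, (D.isSplit_boxF hσ).locOp_eq, D.isSplit_boxK.locOp_eq,
    D.inclLCos_moved_mk hσ u hne, D.inclLCos_moved_mk hσ u hne]
  have hF : ∀ M : (D.boxF σ).locRes u.1, compAt u.1 ((D.boxF σ).lift M.1) ∈ locInt u.1 := fun M =>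
    (D.isSplit_boxF hσ).lift_mem_locInt ((D.isSplit_boxF hσ).locRes_subset u.1 M.2)
  have hK : ∀ M : D.boxK.locRes v, compAt v (D.boxK.lift M.1) ∈ locInt v := fun M =>
    D.isSplit_boxK.lift_mem_locInt (D.isSplit_boxK.locRes_subset v M.2)
  rw [LT.locSum_mk _ hF, LT.locSum_mk _ hK,
    ← finsum_comp_equiv ((D.resUp_bijOn u hσ hne).equiv _)]
  refine finsum_congr fun M => ?_
  have hc : Nat.card ((D.boxF σ).locRes u.1) = Nat.card (D.boxK.locRes v) :=
    (Nat.card_congr ((D.resUp_bijOn u hσ hne).equiv _)).symm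
  show (Nat.card ((D.boxF σ).locRes u.1) : ℂ)⁻¹ * ((D.boxF σ).chi (D.resUp σ u.1 M.1))⁻¹ * _ = _
  rw [hc, D.chi_resUp u hσ hne M.2]
  refine congrArg _ ?_
  have e : ((Matrix.GeneralLinearGroup.map (S.inclOver u) g *
      compAt u.1 ((D.boxF σ).lift (D.resUp σ u.1 M.1)) : GLv u.1) :
        LCos (D.levelIdeal S.F) u.1) =
      ((Matrix.GeneralLinearGroup.map (S.inclOver u) (g * compAt v (D.boxK.lift M.1)) : GLv u.1) :
        LCos (D.levelIdeal S.F) u.1) := by
    symm
    rw [QuotientGroup.eq, map_mul]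
    refine Subgroup.mem_sup_left ?_
    simpa [mul_assoc] using D.lift_resUp u hσ hne M.2
  rw [show ((D.resUp_bijOn u hσ hne).equiv _ M).1 = D.resUp σ u.1 M.1 from rfl, e,
    Pi.single_apply, Pi.single_apply]
  exact if_congr (D.inclLCos_moved_eq_iff hσ u hne _ h) rfl rfl

omit hne in
/-- The local operators of the level. -/
def localOps : D.LocalOps σ where
  locF := (D.boxF σ).locOp
  locK := D.boxK.locOp
  goodF _ hw := (D.isSplit_boxF hσ).locOp_eq_one (D.lvl_notMem hw)
  goodK _ hv := D.isSplit_boxK.locOp_eq_one (D.lvl_notMem hv)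
  levelF_eq := (D.isSplit_boxF hσ).op_eq_liftProd _ fun _ hv =>
    (S.mem_badPlaces_iff _ _).mpr ((D.natCast_lvl_mem_iff _ _).mp hv)
  levelK_eq := D.isSplit_boxK.op_eq_liftProd _ fun _ hv =>
    (S.mem_badPlaces_iff _ _).mpr ((D.natCast_lvl_mem_iff _ _).mp hv)
  cosetF := D.isCosetOp_levelOpF σ
  cosetK := D.isCosetOp_levelOpK
  bddF := (D.isSplit_boxF hσ).isBddOp_locOp
  bddK := D.isSplit_boxK.isBddOp_locOp
  smulF := (D.isSplit_boxF hσ).lKer_locOp_smul
  smulK := D.isSplit_boxK.lKer_locOp_smul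
  idemK := D.isSplit_boxK.locOp_idem
  moved _ u _ hne a b := D.lKer_locOp_moved u hσ hne a b

end Setup.Level

end FermatAgent.LTG

end
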